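import Fermat.Agent.JT.Tr
import Fermat.Agent.TW.Lat

/-!
# The joint trace ring
-/

set_option autoImplicit false
set_option linter.unusedSectionVars false
set_option linter.style.haveILetI false

open IsLocalRing
open Fermat.Agent.GalRep Fermat.Agent.Places Fermat.Agent.Cheb Fermat.Agent.TW Fermat.Agent.KumG

namespace Fermat.Agent.JT

noncomputable section

variable {O : Type} [CommRing O] [IsLocalRing O] [IsNoetherianRing O]
  [IsAdicComplete (maximalIdeal O) O] {p : ℕ} [hp : Fact p.Prime]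
  (hpO : (p : O) ∈ maximalIdeal O)

/-- the cyclotomic character is `p`-adically continuous -/
theorem exists_level_cycO (n : ℕ) : ∃ L : IntermediateField ℚ (AlgebraicClosure ℚ),
    FiniteDimensional ℚ L ∧ ∀ σ : GQ, (∀ x ∈ L, σ x = x) →
      ∃ w : O, cycO hpO σ = 1 + (p ^ n : O) * w := by
  obtain ⟨L₂, hL₂, hL₂'⟩ := exists_level_cyc (p ^ n)
  refine ⟨L₂, hL₂, fun σ hσ => ?_⟩
  obtain ⟨z, hz⟩ := cycO_spec (O := O) hpO σ n
  have h1 := hL₂' σ hσ
  obtain ⟨z', hz'⟩ := cycO_spec (O := O) hpO (1 : GQ) n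
  rw [map_one] at hz'
  rw [h1, ← map_one (cyc (p ^ n))] at hz
  refine ⟨z - z', ?_⟩
  rw [hz, hz']
  ring

section rel

variable {T X : Type} [CommRing T] [Algebra O T] [AddCommGroup X] [Module O X]
  [Module.Finite O X] [Module.Free O X] {S : Set ℕ} (ψ : T →ₐ[O] Module.End O X)
  (ρ : GQ →* Module.End O X)

/-- the trace operator -/
def trO (g : GQ) : Module.End O X := ρ g + cycO hpO g • ρ g⁻¹

theorem trO_rec (τ : GQ) (k : ℕ) : trO hpO ρ (τ ^ (k + 2)) =
    trO hpO ρ τ * trO hpO ρ (τ ^ (k + 1)) - cycO hpO τ • trO hpO ρ (τ ^ k) := by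
  have e1 : ρ (τ ^ (k + 2)) = ρ τ * ρ (τ ^ (k + 1)) := by rw [← map_mul, ← pow_succ']
  have e2 : ρ (τ ^ (k + 2))⁻¹ = ρ τ⁻¹ * ρ (τ ^ (k + 1))⁻¹ := by
    rw [← map_mul, ← mul_inv_rev, ← pow_succ]
  have e3 : ρ τ * ρ (τ ^ (k + 1))⁻¹ = ρ (τ ^ k)⁻¹ := by
    rw [← map_mul]; congr 1; rw [pow_succ, mul_inv_rev, mul_inv_cancel_left]
  have e4 : ρ τ⁻¹ * ρ (τ ^ (k + 1)) = ρ (τ ^ k) := by
    rw [← map_mul]; congr 1; rw [pow_succ', inv_mul_cancel_left]
  have d1 : cycO hpO (τ ^ (k + 2)) = cycO hpO τ * cycO hpO (τ ^ (k + 1)) := by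
    rw [← map_mul, ← pow_succ']
  have d2 : cycO hpO (τ ^ (k + 1)) = cycO hpO τ * cycO hpO (τ ^ k) := by
    rw [← map_mul, ← pow_succ']
  rw [trO, trO, trO, trO, e1, e2, d1, add_mul, mul_add, mul_add, mul_smul_comm, smul_mul_assoc,
    smul_mul_assoc, mul_smul_comm, e3, e4, smul_add, smul_smul, smul_smul, ← d2]
  abel

/-- **The traces lie in the image of the algebra, if the traces of Frobenius do.** -/
theorem rel_of_frob (hS : S.Finite)
    (hcont : ∀ n : ℕ, ∃ L : IntermediateField ℚ (AlgebraicClosure ℚ), FiniteDimensional ℚ L ∧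
      ∀ σ : GQ, (∀ x ∈ L, σ x = x) → ∃ E : Module.End O X, ρ σ = 1 + (p ^ n : O) • E)
    (hfrob : ∀ l : ℕ, l.Prime → l ∉ S → ∀ A : ValuationSubring (AlgebraicClosure ℚ),
      A.LiesOverPrime l → ∀ τ : GQ, A.IsFrobeniusAt τ l → ∃ s, trO hpO ρ τ = ψ s) (g : GQ) :
    ∃ s, ρ g + cycO hpO g • ρ g⁻¹ = ψ s := by
  suffices h : trO hpO ρ g ∈ LinearMap.range ψ.toLinearMap by
    obtain ⟨s, hs⟩ := h
    exact ⟨s, hs.symm⟩
  refine mem_of_forall_sup _ fun n => ?_
  obtain ⟨L, hL, h1⟩ := hcont n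
  obtain ⟨L', hL', h1'⟩ := exists_level_cycO hpO n
  haveI := hL
  haveI := hL'
  have hmem : ∀ E : Module.End O X, (p ^ n : O) • E ∈
      LinearMap.range ψ.toLinearMap ⊔ maximalIdeal O ^ n • (⊤ : Submodule O (Module.End O X)) :=
    fun E => Submodule.mem_sup_right (Submodule.smul_mem_smul (Ideal.pow_mem_pow hpO _) trivial)
  haveI : FiniteDimensional ℚ (L ⊔ L' : IntermediateField ℚ (AlgebraicClosure ℚ)) := inferInstance
  refine frobenius_induction S hS (L ⊔ L').fixingSubgroup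
    (IntermediateField.fixingSubgroup_isOpen _) (fun g => trO hpO ρ g ∈
      LinearMap.range ψ.toLinearMap ⊔ maximalIdeal O ^ n • (⊤ : Submodule O (Module.End O X)))
      (fun g u hu hg => ?_) (fun l hl hlS A hA τ hτ k => ?_) g
  · have hu' : ∀ x ∈ (L ⊔ L' : IntermediateField ℚ (AlgebraicClosure ℚ)), u x = x := fun x hx =>
      (IntermediateField.mem_fixingSubgroup_iff _ u).1 hu x hx
    have hui : ∀ x ∈ (L ⊔ L' : IntermediateField ℚ (AlgebraicClosure ℚ)), u⁻¹ x = x := fun x hx =>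
      (IntermediateField.mem_fixingSubgroup_iff _ u⁻¹).1 (inv_mem hu) x hx
    obtain ⟨E, hE⟩ := h1 u fun x hx => hu' x ((le_sup_left : L ≤ L ⊔ L') hx)
    obtain ⟨E', hE'⟩ := h1 u⁻¹ fun x hx => hui x ((le_sup_left : L ≤ L ⊔ L') hx)
    obtain ⟨w, hw⟩ := h1' u fun x hx => hu' x ((le_sup_right : L' ≤ L ⊔ L') hx)
    have e : trO hpO ρ (g * u) = trO hpO ρ g + (p ^ n : O) • (ρ g * E + cycO hpO g • (E' * ρ g⁻¹) +
        (cycO hpO g * w) • (ρ u⁻¹ * ρ g⁻¹)) := by
      have h3 : ρ u⁻¹ * ρ g⁻¹ = ρ g⁻¹ + (p : O) ^ n • (E' * ρ g⁻¹) := by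
        rw [hE', add_mul, one_mul, smul_mul_assoc]
      rw [trO, trO, mul_inv_rev, map_mul ρ, map_mul ρ, map_mul (cycO hpO), hE, hw, h3,
        mul_add, mul_one, mul_smul_comm, mul_add, mul_one, add_smul]
      simp only [smul_add, smul_smul]
      module
    rw [e]
    exact Submodule.add_mem _ hg (hmem _)
  · obtain ⟨s₁, hs₁⟩ := hfrob l hl hlS A hA τ hτ
    have key : ∀ k : ℕ, (∃ s, trO hpO ρ (τ ^ k) = ψ s) ∧ ∃ s, trO hpO ρ (τ ^ (k + 1)) = ψ s := by
      intro k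
      induction k with
      | zero =>
        refine ⟨⟨2, ?_⟩, s₁, by rw [zero_add, pow_one, hs₁]⟩
        rw [trO, pow_zero, inv_one, map_one, map_one, one_smul, map_ofNat]
        exact one_add_one_eq_two
      | succ k ih =>
        obtain ⟨⟨s, hs⟩, s', hs'⟩ := ih
        refine ⟨⟨s', hs'⟩, s₁ * s' - cycO hpO τ • s, ?_⟩
        rw [trO_rec, hs₁, hs, hs', map_sub, map_mul, map_smul]
    obtain ⟨s, hs⟩ := (key k).1
    rw [hs]
    exact Submodule.mem_sup_left ⟨s, rfl⟩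

end rel

/-! ### The joint module -/

section joint

variable {T Y : Type} [CommRing T] [Algebra O T] [AddCommGroup Y] [Module O Y]
  [Module.Finite O Y] [Module.Free O Y] [Nontrivial Y]

/-- a point: a two-dimensional representation with coefficients in `O`, congruent -/
structure PtD (S : Set ℕ) (ψ : T →ₐ[O] Module.End O Y) (θ : T →ₐ[O] ResidueField O)
    (ρ : GQ →* Module.End O Y) (χ : T →ₐ[O] O) (ρW : GQ →* Matrix (Fin 2) (Fin 2) O) : Prop where
  det : ∀ g, (ρW g).det = cycO hpO g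
  cont : ∀ n : ℕ, ∃ L : IntermediateField ℚ (AlgebraicClosure ℚ), FiniteDimensional ℚ L ∧
    ∀ σ : GQ, (∀ x ∈ L, σ x = x) → ∃ E : Matrix (Fin 2) (Fin 2) O, ρW σ = 1 + (p ^ n : O) • E
  res : ∀ s, residue O (χ s) = θ s
  frob : ∀ l : ℕ, l.Prime → l ∉ S → ∀ A : ValuationSubring (AlgebraicClosure ℚ),
    A.LiesOverPrime l → ∀ τ : GQ, A.IsFrobeniusAt τ l →
      ∃ s, ρ τ + (l : O) • ρ τ⁻¹ = ψ s ∧ χ s = (ρW τ).trace

/-- the Hecke action on the joint module -/
def psiJ (ψ : T →ₐ[O] Module.End O Y) (χ : T →ₐ[O] O) :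
    T →ₐ[O] Module.End O (Y × (Fin 2 → O)) :=
  (LinearMap.prodMapAlgHom O Y (Fin 2 → O)).comp
    (ψ.prod ((Algebra.ofId O (Module.End O (Fin 2 → O))).comp χ))

/-- the Galois action on the joint module -/
def rhoJ (ρ : GQ →* Module.End O Y) (ρW : GQ →* Matrix (Fin 2) (Fin 2) O) :
    GQ →* Module.End O (Y × (Fin 2 → O)) where
  toFun g := LinearMap.prodMap (ρ g) (Matrix.mulVecLin (ρW g))
  map_one' := by
    rw [map_one, map_one, Matrix.mulVecLin_one]
    rfl
  map_mul' a b := by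
    rw [map_mul, map_mul, Matrix.mulVecLin_mul]
    rfl

variable {ψ : T →ₐ[O] Module.End O Y} {χ : T →ₐ[O] O} {ρ : GQ →* Module.End O Y}
  {ρW : GQ →* Matrix (Fin 2) (Fin 2) O}

theorem psiJ_apply (s : T) (y : Y × (Fin 2 → O)) : psiJ ψ χ s y = (ψ s y.1, χ s • y.2) := rfl

theorem rhoJ_apply (g : GQ) (y : Y × (Fin 2 → O)) :
    rhoJ ρ ρW g y = (ρ g y.1, (ρW g).mulVec y.2) := rfl

variable {hpO}

theorem tr_eq (hdet : ∀ g, (ρW g).det = cycO hpO g) (g : GQ) :
    ρW g + cycO hpO g • ρW g⁻¹ = (ρW g).trace • (1 : Matrix (Fin 2) (Fin 2) O) := by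
  have h1 : ρW g * ρW g⁻¹ = 1 := by rw [← map_mul, mul_inv_cancel, map_one]
  have h2 : cycO hpO g • ρW g⁻¹ = (ρW g).adjugate := by
    calc cycO hpO g • ρW g⁻¹ = ((ρW g).adjugate * ρW g) * ρW g⁻¹ := by
          rw [Matrix.adjugate_mul, hdet, Matrix.smul_mul, Matrix.one_mul]
      _ = (ρW g).adjugate := by rw [mul_assoc, h1, mul_one]
  rw [h2, Matrix.adjugate_fin_two]
  ext i j
  fin_cases i <;> fin_cases j <;> simp [Matrix.trace_fin_two, add_comm]

theorem trO_J (hdet : ∀ g, (ρW g).det = cycO hpO g) (g : GQ) (y : Y × (Fin 2 → O)) :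
    trO hpO (rhoJ ρ ρW) g y = (trO hpO ρ g y.1, (ρW g).trace • y.2) := by
  have h1 := congrArg (fun M => Matrix.mulVec M y.2) (tr_eq hdet g)
  simp only [Matrix.add_mulVec, Matrix.smul_mulVec, Matrix.one_mulVec] at h1
  rw [← h1]
  rfl

variable {S : Set ℕ} {t : GQ → ResidueField O} {θ : T →ₐ[O] ResidueField O}
  (h : HG hpO S t ψ θ ρ) (D : PtD hpO S ψ θ ρ χ ρW)

include h D in
/-- **The joint Galois module.** -/
theorem joint : HG hpO S t (psiJ ψ χ) θ (rhoJ ρ ρW) := by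
  have hf : ∀ l : ℕ, l.Prime → l ∉ S → ∀ A : ValuationSubring (AlgebraicClosure ℚ),
      A.LiesOverPrime l → ∀ τ : GQ, A.IsFrobeniusAt τ l →
        cycO hpO τ = (l : O) ∧ ∃ s, trO hpO (rhoJ ρ ρW) τ = psiJ ψ χ s ∧ θ s = t τ := by
    intro l hl hlS A hA τ hτ
    obtain ⟨h1, s', hs', hs''⟩ := h.frob l hl hlS A hA τ hτ
    obtain ⟨s, hs, hχ⟩ := D.frob l hl hlS A hA τ hτ
    refine ⟨h1, s, LinearMap.ext fun y => ?_, ?_⟩
    · rw [trO_J D.det, psiJ_apply, hχ, trO, h1, hs]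
    · rw [← hs'', ← sub_eq_zero, ← map_sub]
      refine h.ker_le ?_
      rw [map_sub, ← hs, ← hs', sub_self]
  have hcont : ∀ n : ℕ, ∃ L : IntermediateField ℚ (AlgebraicClosure ℚ), FiniteDimensional ℚ L ∧
      ∀ σ : GQ, (∀ x ∈ L, σ x = x) → ∃ E : Module.End O (Y × (Fin 2 → O)),
        rhoJ ρ ρW σ = 1 + (p ^ n : O) • E := by
    intro n
    obtain ⟨L, hL, h1⟩ := h.cont n
    obtain ⟨L', hL', h2⟩ := D.cont n
    haveI := hL
    haveI := hL'
    refine ⟨L ⊔ L', inferInstance, fun σ hσ => ?_⟩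
    obtain ⟨E, hE⟩ := h1 σ fun x hx => hσ x ((le_sup_left : L ≤ L ⊔ L') hx)
    obtain ⟨E', hE'⟩ := h2 σ fun x hx => hσ x ((le_sup_right : L' ≤ L ⊔ L') hx)
    refine ⟨LinearMap.prodMap E (Matrix.mulVecLin E'), LinearMap.ext fun y => ?_⟩
    rw [rhoJ_apply, hE, hE', Matrix.add_mulVec, Matrix.one_mulVec, Matrix.smul_mulVec]
    rfl
  have hnil : ∀ s, θ s = 0 → ∃ n : ℕ, ∀ x, psiJ ψ χ (s ^ n) x ∈
      (maximalIdeal O) • (⊤ : Submodule O (Y × (Fin 2 → O))) := by
    intro s hs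
    obtain ⟨n, hn⟩ := h.nil s hs
    refine ⟨n + 1, fun x => ?_⟩
    have h1 := hn (ψ s x.1)
    rw [← Module.End.mul_apply, ← map_mul, ← pow_succ] at h1
    have h2 : χ s ∈ maximalIdeal O := by
      rw [← IsLocalRing.residue_eq_zero_iff, D.res, hs]
    have h3 : χ (s ^ (n + 1)) • x.2 ∈ (maximalIdeal O) • (⊤ : Submodule O (Fin 2 → O)) := by
      rw [map_pow]
      exact Submodule.smul_mem_smul (Ideal.pow_mem_of_mem _ h2 _ n.succ_pos) trivial
    have h4 : LinearMap.inl O Y (Fin 2 → O) (ψ (s ^ (n + 1)) x.1) ∈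
      (maximalIdeal O) • (⊤ : Submodule O (Y × (Fin 2 → O))) :=
      Submodule.smul_top_le_comap_smul_top (maximalIdeal O) (LinearMap.inl O Y (Fin 2 → O)) h1
    have h5 : LinearMap.inr O Y (Fin 2 → O) (χ (s ^ (n + 1)) • x.2) ∈
      (maximalIdeal O) • (⊤ : Submodule O (Y × (Fin 2 → O))) :=
      Submodule.smul_top_le_comap_smul_top (maximalIdeal O) (LinearMap.inr O Y (Fin 2 → O)) h3
    have h6 := add_mem h4 h5
    rw [psiJ_apply]
    simpa using h6
  refine ⟨h.fin, fun σ s y => ?_, ?_, hcont, hnil, fun s hs => ?_, ?_, h.pr, h.loc⟩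
  · rw [psiJ_apply, rhoJ_apply, rhoJ_apply, psiJ_apply]
    refine Prod.ext (h.comm σ s y.1) ?_
    change (ρW σ).mulVec (χ s • y.2) = χ s • (ρW σ).mulVec y.2
    exact Matrix.mulVec_smul _ _ _
  · exact rel_of_frob hpO (psiJ ψ χ) (rhoJ ρ ρW) h.fin hcont fun l hl hlS A hA τ hτ => by
      obtain ⟨-, s, hs, -⟩ := hf l hl hlS A hA τ hτ
      exact ⟨s, hs⟩
  · have h1 : IsLoc (psiJ ψ χ) θ 1 := by
      refine isLoc_unit (by rw [map_one, mul_one]) fun s hs => ?_
      obtain ⟨n, hn⟩ := hnil _ hs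
      exact ⟨n, fun x => by rw [mul_one]; exact hn x⟩
    obtain ⟨s', hs'⟩ := h1.unit s hs
    refine ⟨s', ?_⟩
    rw [map_one, mul_one] at hs'
    exact hs'
  · intro l hl hlS A hA τ hτ
    obtain ⟨h1, s, hs, h2⟩ := hf l hl hlS A hA τ hτ
    refine ⟨h1, s, ?_, h2⟩
    rw [← hs, trO, h1]

instance : Nontrivial (Y × (Fin 2 → O)) := Prod.fst_surjective.nontrivial

/-- the projection to the trace ring of the module -/
theorem exists_pr1 : ∃ φ : (joint h D).TT →ₐ[O] h.TT, (∀ g, φ ((joint h D).tt g) = h.tt g) ∧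
    ∀ (a : (joint h D).TT) (y : Y × (Fin 2 → O)), (a • y).1 = φ a • y.1 := by
  obtain ⟨φ, h1, h2⟩ := exists_TT_of_inj (joint h D) h (LinearMap.inl O Y (Fin 2 → O))
    LinearMap.inl_injective (fun g y => by
      rw [rhoJ_apply]
      refine Prod.ext rfl ?_
      change (0 : Fin 2 → O) = (ρW g).mulVec 0
      exact (Matrix.mulVec_zero _).symm)
  refine ⟨φ, h1, fun a y => ?_⟩
  obtain ⟨f, rfl⟩ := exists_mk (joint h D) a
  have key : ∀ (f : MvPolynomial GQ O) (y : Y × (Fin 2 → O)), (psiQ (joint h D).rel f y).1 =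
      psiQ h.rel f y.1 := by
    intro f
    induction f using MvPolynomial.induction_on with
    | C r =>
      intro y
      have e1 : psiQ (joint h D).rel (MvPolynomial.C r) = algebraMap O _ r :=
        (psiQ (joint h D).rel).commutes r
      have e2 : psiQ h.rel (MvPolynomial.C r) = algebraMap O _ r := (psiQ h.rel).commutes r
      rw [e1, e2]
      rfl
    | add a b ha hb =>
      intro y
      rw [map_add, map_add, LinearMap.add_apply, LinearMap.add_apply, Prod.fst_add, ha, hb]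
    | mul_X a g ha =>
      intro y
      rw [map_mul, map_mul, Module.End.mul_apply, Module.End.mul_apply, ha, psiQ_X (joint h D),
        psiQ_X h]
      rfl
  have h3 : φ (BB.mk (psiQ (joint h D).rel) f) = (BB.mk (psiQ h.rel) f : h.TT) := by
    have h4 : φ.comp (BB.mk (psiQ (joint h D).rel)) = BB.mk (psiQ h.rel) :=
      MvPolynomial.algHom_ext h1
    exact congrArg (fun F : MvPolynomial GQ O →ₐ[O] h.TT => F f) h4
  rw [h3]
  exact key f y

/-- the projection to `O` -/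
theorem exists_pr2 : ∃ φ : (joint h D).TT →ₐ[O] O, (∀ g, φ ((joint h D).tt g) = (ρW g).trace) ∧
    ∀ (a : (joint h D).TT) (y : Y × (Fin 2 → O)), (a • y).2 = φ a • y.2 := by
  have key : ∀ (f : MvPolynomial GQ O) (y : Y × (Fin 2 → O)), (psiQ (joint h D).rel f y).2 =
      (MvPolynomial.aeval (fun g => (ρW g).trace) f : O) • y.2 := by
    intro f
    induction f using MvPolynomial.induction_on with
    | C r =>
      intro y
      have e1 : psiQ (joint h D).rel (MvPolynomial.C r) = algebraMap O _ r :=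
        (psiQ (joint h D).rel).commutes r
      rw [e1, MvPolynomial.aeval_C]
      rfl
    | add a b ha hb =>
      intro y
      rw [map_add, map_add, LinearMap.add_apply, Prod.snd_add, ha, hb, add_smul]
    | mul_X a g ha =>
      intro y
      have e2 : psiQ (joint h D).rel (MvPolynomial.X g) y =
          trO hpO (rhoJ ρ ρW) g y := congrArg (fun F : Module.End O (Y × (Fin 2 → O)) => F y)
            (psiQ_X (joint h D) g)
      rw [map_mul, map_mul, Module.End.mul_apply, ha, e2, trO_J D.det, MvPolynomial.aeval_X,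
        smul_smul]
  refine ⟨TTlift (joint h D) (fun g => (ρW g).trace) fun f hf => ?_, TTlift_tt _ _ _, fun a y => ?_⟩
  · have h1 := key f (0, Pi.single 0 1)
    rw [hf] at h1
    have h2 := congrFun h1 0
    simpa using h2.symm
  · obtain ⟨f, rfl⟩ := exists_mk (joint h D) a
    exact key f y

end joint

end

end Fermat.Agent.JT
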