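import Fermat.Agent.JT.Lev0
import Fermat.Agent.JT.Joint

/-!
# The joint representation at a Taylor–Wiles level
-/

set_option autoImplicit false
set_option linter.unusedSectionVars false
set_option linter.style.haveILetI false

open IsLocalRing
open scoped TensorProduct
open Fermat.Agent.KumG Fermat.Agent.GalRep Fermat.Agent.Places Fermat.Agent.Cheb Fermat.Agent.TW

namespace Fermat.Agent.JT

noncomputable section

variable {O : Type} [CommRing O] [IsLocalRing O] [IsNoetherianRing O]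
  [IsAdicComplete (maximalIdeal O) O] {p : ℕ} [hp : Fact p.Prime]
  (hpO : (p : O) ∈ maximalIdeal O)

/-- the character of the Hecke algebra defined by the eigenvalues `a l` (trivial diamonds) -/
def chiW (a : ℕ → O) (S : Set ℕ) (N : ℕ) : TD O S N →ₐ[O] O :=
  MvPolynomial.aeval (Sum.elim (fun i : IS S => a i) fun _ => 1)

theorem chiW_inl (a : ℕ → O) (S : Set ℕ) (N : ℕ) (i : IS S) :
    chiW a S N (MvPolynomial.X (Sum.inl i)) = a i := by
  rw [chiW, MvPolynomial.aeval_X, Sum.elim_inl]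

theorem chiW_inr (a : ℕ → O) (S : Set ℕ) (N : ℕ) (d : (ZMod N)ˣ) :
    chiW a S N (MvPolynomial.X (Sum.inr d)) = 1 := by
  rw [chiW, MvPolynomial.aeval_X, Sum.elim_inr]

theorem residue_chiW (a : ℕ → O) {S : Set ℕ} (N : ℕ) [NeZero N] {θ : TS O S →ₐ[O] ResidueField O}
    (hθ : ∀ i : IS S, residue O (a i) = θ (MvPolynomial.X i)) (s : TD O S N) :
    residue O (chiW a S N s) = thetaD θ N s := by
  have h1 : (Algebra.ofId O (ResidueField O)).comp (chiW a S N) = thetaD θ N := by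
    refine MvPolynomial.algHom_ext fun i => ?_
    rcases i with i | d
    · rw [AlgHom.comp_apply, chiW_inl, thetaD_inl, ← hθ]
      rfl
    · rw [AlgHom.comp_apply, chiW_inr, thetaD_inr, map_one]
  exact congrArg (fun F : TD O S N →ₐ[O] ResidueField O => F s) h1

/-- a two-dimensional representation over `O` with given traces of Frobenius outside `S` -/
structure WRep (S : Set ℕ) (a : ℕ → O) (ρW : GQ →* Matrix (Fin 2) (Fin 2) O) : Prop where
  det : ∀ g, (ρW g).det = cycO hpO g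
  cont : ∀ n : ℕ, ∃ L : IntermediateField ℚ (AlgebraicClosure ℚ), FiniteDimensional ℚ L ∧
    ∀ σ : GQ, (∀ x ∈ L, σ x = x) → ∃ E : Matrix (Fin 2) (Fin 2) O, ρW σ = 1 + (p ^ n : O) • E
  trace : ∀ l : ℕ, l.Prime → l ∉ S → ∀ A : ValuationSubring (AlgebraicClosure ℚ),
    A.LiesOverPrime l → ∀ τ : GQ, A.IsFrobeniusAt τ l → (ρW τ).trace = a l

variable {hpO} {N : ℕ} [NeZero N] (ι : AlgebraicClosure ℚ →+* ℂ) {H : Subgroup (ZMod N)ˣ}
  [hH : Fact ((-1 : (ZMod N)ˣ) ∈ H)] {S : Set ℕ} {hNS : ∀ l, l.Prime → l ∣ N → l ∈ S}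

/-- **The point data at a level** -/
theorem ptD_YH (hpS : p ∈ S) (hp2 : p ≠ 2) (hΔ : IsPGroup p (DG N H))
    {θ : TS O S →ₐ[O] ResidueField O} (e : TS O S) {a : ℕ → O}
    {ρW : GQ →* Matrix (Fin 2) (Fin 2) O} (hW : WRep hpO S a ρW)
    (hθ : ∀ i : IS S, residue O (a i) = θ (MvPolynomial.X i)) :
    PtD hpO S (psiY H hNS e) (thetaD θ N) (rhoY hpO ι H hNS e) (chiW a S N) ρW := by
  have hodd := odd_card hp2 hΔ
  refine ⟨hW.det, hW.cont, residue_chiW a N hθ, fun l hl hlS A hA τ hτ => ?_⟩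
  have hlp : l ≠ p := by rintro rfl; exact hlS hpS
  have hlN : ¬ l ∣ N := fun h => hlS (hNS l hl h)
  have h1 := rhoT_frob (O := O) (H := H) hpO ι hodd hl hlN hlp hA hτ
  refine ⟨MvPolynomial.X (Sum.inr (twd N H τ).out) * MvPolynomial.X (Sum.inl ⟨l, hl, hlS⟩),
    LinearMap.ext fun y => Subtype.ext ?_, ?_⟩
  · have h2 := LinearMap.congr_fun h1 (y : XH O N H)
    rw [actPart_coe, map_mul, phiD_inr, phiD_inl, ← DO_mk, QuotientGroup.out_eq']
    exact h2
  · rw [map_mul, chiW_inr, chiW_inl, one_mul, hW.trace l hl hlS A hA τ hτ]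

section lev

variable [Invertible (2 : O)] {t : GQ → ResidueField O} {g₀ k₀ : GQ} {hgk : HG.IrrAt t g₀ k₀}
  {θ : TS O S →ₐ[O] ResidueField O} {r : ℕ} {v : Fin r → ℕ}
  {A : Fin r → ValuationSubring (AlgebraicClosure ℚ)} {m c : Fin r → ℕ} {e : TS O S} {B : ℕ}
  {ι}

/-- the local character is residually trivial -/
theorem eta_sub_mem {T Y : Type} [CommRing T] [Algebra O T] [AddCommGroup Y] [Module O Y]
    [Module.Finite O Y] [Module.Free O Y] [Nontrivial Y]
    {ψ : T →ₐ[O] Module.End O Y} {θ : T →ₐ[O] ResidueField O} {ρ : GQ →* Module.End O Y}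
    (h : HG hpO S t ψ θ ρ) {j : ℕ} {x : h.TT} (hx : x ^ p ^ j = 1) :
    x - 1 ∈ maximalIdeal h.TT := by
  haveI := charP_res hpO
  rw [← h.theta_eq_zero, map_sub, map_one]
  have h2 := congrArg h.theta hx
  rw [map_pow, map_one] at h2
  have h3 : (h.theta x - 1) ^ p ^ j = 0 := by
    haveI : ExpChar (ResidueField O) p := ExpChar.prime hp.out
    rw [sub_pow_expChar_pow, h2, one_pow, sub_self]
  exact eq_zero_of_pow_eq_zero h3

/-- the Taylor–Wiles level attached to local data -/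
def Lev0.toTWLev (h : Lev0 hpO ι hgk hNS θ v A m c e B) {n : ℕ}
    (hmc : ∀ i, v i - 1 = p ^ m i * c i) (hc : ∀ i, ¬ p ∣ c i) (hm : ∀ i, n ≤ m i)
    (L : haveI := h.hH; haveI := h.nt; haveI := h.fr; ∀ i, LocW p (v i) (A i) (h.hg.R hgk)) :
    TWLev hpO ι hgk hNS θ v A n B :=
  haveI := h.hH
  haveI := h.nt
  haveI := h.fr
  { hvN := h.hvN
    c := c
    m := m
    hmc := hmc
    hc := hc
    hm := hm
    hΔ := h.hΔ
    e := e
    he := h.he
    heH := h.heH
    hg := h.hg
    L := L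
    hL := fun i => eta_sub_mem h.hg ((L i).ord (m i) (c i) (hmc i) (hc i))
    d := (h.free L).choose
    hd := (h.free L).choose_spec.choose_spec.choose_spec.1
    hdB := (h.free L).choose_spec.choose_spec.choose_spec.2.1
    E := (h.free L).choose_spec.choose
    f := (h.free L).choose_spec.choose_spec.choose
    hE := (h.free L).choose_spec.choose_spec.choose_spec.2.2.1
    hf := (h.free L).choose_spec.choose_spec.choose_spec.2.2.2 }

end lev

end

end Fermat.Agent.JT
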