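import Fermat.Agent.TW.TQ4

/-!
# Maps between trace rings
-/

set_option autoImplicit false
set_option linter.unusedSectionVars false
set_option linter.style.haveILetI false

open IsLocalRing
open Fermat.Agent.GalRep Fermat.Agent.Places Fermat.Agent.Cheb Fermat.Agent.TW

namespace Fermat.Agent.JT

noncomputable section

section RR

variable {G T B : Type*} [Group G] [CommRing T] [CommRing B] [Invertible (2 : T)]
  [i2 : Invertible (2 : B)]

theorem map_half (φ : T →+* B) : φ ⅟2 = ⅟2 := by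
  have h1 : φ ⅟2 * 2 = 1 := by
    rw [← map_ofNat φ 2, ← map_mul, invOf_mul_self, map_one]
  have h2 := mul_invOf_self (2 : B)
  calc φ ⅟2 = φ ⅟2 * (2 * ⅟2) := by rw [h2, mul_one]
    _ = (φ ⅟2 * 2) * ⅟2 := by rw [mul_assoc]
    _ = ⅟2 := by rw [h1, one_mul]

theorem map_aa (φ : T →+* B) (t : G → T) (c g : G) : φ (aa t c g) = aa (fun g => φ (t g)) c g := by
  rw [aa, aa, map_mul, map_half, map_add]

theorem map_ee (φ : T →+* B) (t : G → T) (c g : G) : φ (ee t c g) = ee (fun g => φ (t g)) c g := by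
  rw [ee, ee, map_mul, map_half, map_sub]

theorem map_bc (φ : T →+* B) (t : G → T) (c g k : G) :
    φ (bc t c g k) = bc (fun g => φ (t g)) c g k := by
  rw [bc, bc, map_mul, map_half, map_sub, map_aa, map_aa]

theorem map_RR (φ : T →+* B) (t : G → T) (c g₀ k₀ : G) (u : Tˣ) (u' : Bˣ) (hu : φ u = u') (g : G) :
    (RR t c g₀ k₀ u g).map φ = RR (fun g => φ (t g)) c g₀ k₀ u' g := by
  have h1 : φ (↑u⁻¹ : T) = (↑u'⁻¹ : B) := by
    have h2 : Units.map φ.toMonoidHom u = u' := Units.ext hu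
    rw [← h2, ← map_inv]
    rfl
  ext i j
  fin_cases i <;> fin_cases j
  · exact map_aa φ t c g
  · change φ ((↑u⁻¹ : T) * bc t c g k₀) = (↑u'⁻¹ : B) * bc (fun g => φ (t g)) c g k₀
    rw [map_mul, h1, map_bc]
  · exact map_bc φ t c g₀ g
  · exact map_ee φ t c g

/-- a normalised representation is recovered from its traces -/
theorem RR_normal (r : G →* Matrix (Fin 2) (Fin 2) B) {c g₀ k₀ : G} (hc : r c = !![1, 0; 0, -1])
    (h01 : r g₀ 0 1 = 1) (u : Bˣ) (hu : (u : B) = bc (fun g => (r g).trace) c g₀ k₀) (g : G) :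
    RR (fun g => (r g).trace) c g₀ k₀ u g = r g := by
  have h2 := mul_invOf_self (2 : B)
  have haa : ∀ g, aa (fun g => (r g).trace) c g = r g 0 0 := by
    intro g
    rw [aa, map_mul, hc, Matrix.trace_fin_two, Matrix.trace_fin_two]
    simp only [Matrix.mul_apply, Fin.sum_univ_two, Matrix.of_apply, Matrix.cons_val', Matrix.cons_val_zero,
      Matrix.cons_val_one, Matrix.cons_val_fin_one]
    linear_combination (r g 0 0) * h2
  have hee : ∀ g, ee (fun g => (r g).trace) c g = r g 1 1 := by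
    intro g
    rw [ee, map_mul, hc, Matrix.trace_fin_two, Matrix.trace_fin_two]
    simp only [Matrix.mul_apply, Fin.sum_univ_two, Matrix.of_apply, Matrix.cons_val', Matrix.cons_val_zero,
      Matrix.cons_val_one, Matrix.cons_val_fin_one]
    linear_combination (r g 1 1) * h2
  have hbc : ∀ g k, bc (fun g => (r g).trace) c g k = r g 0 1 * r k 1 0 := by
    intro g k
    rw [bc, haa, haa, map_mul, map_mul, map_mul, hc]
    simp only [Matrix.mul_apply, Fin.sum_univ_two, Matrix.of_apply, Matrix.cons_val', Matrix.cons_val_zero,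
      Matrix.cons_val_one, Matrix.cons_val_fin_one]
    linear_combination (r g 0 1 * r k 1 0) * h2
  rw [hbc, h01, one_mul] at hu
  ext i j
  fin_cases i <;> fin_cases j
  · exact haa g
  · change (↑u⁻¹ : B) * bc (fun g => (r g).trace) c g k₀ = r g 0 1
    rw [hbc, ← hu, mul_comm, mul_assoc, Units.mul_inv, mul_one]
  · change bc (fun g => (r g).trace) c g₀ g = r g 1 0
    rw [hbc, h01, one_mul]
  · exact hee g

end RR

/-! ### Maps of local data -/

/-- the image of the local structure -/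
def LocW.map {A' B' : Type} [CommRing A'] [CommRing B'] {p v : ℕ}
    {A : ValuationSubring (AlgebraicClosure ℚ)} {R : GQ →* Matrix (Fin 2) (Fin 2) A'}
    (L : LocW p v A R) (φ : A' →+* B') {R' : GQ →* Matrix (Fin 2) (Fin 2) B'}
    (hR : ∀ g, (R g).map φ = R' g) : LocW p v A R' where
  P₁ := L.P₁.map φ
  P₂ := L.P₂.map φ
  add := by
    have h := congrArg (RingHom.mapMatrix φ) L.add
    rw [map_add, map_one] at h
    exact h
  mul := by
    have h := congrArg (RingHom.mapMatrix φ) L.mul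
    rw [map_mul, map_zero] at h
    exact h
  trace := by
    have h := congrArg φ L.trace
    rw [map_one] at h
    rw [← h, Matrix.trace_fin_two, Matrix.trace_fin_two, map_add]
    rfl
  η g := φ (L.η g)
  η' g := φ (L.η' g)
  eq σ hσ := by
    rw [← hR, L.eq σ hσ]
    ext i j
    simp only [Matrix.map_apply, Matrix.add_apply, Matrix.smul_apply, smul_eq_mul, map_add, map_mul]
  inv σ hσ := by rw [← map_mul, L.inv σ hσ, map_one]
  one := by rw [L.one, map_one]
  hmul σ hσ τ hτ := by rw [L.hmul σ hσ τ hτ, map_mul]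
  σ₀ := L.σ₀
  mem := L.mem
  gen σ hσ := by
    obtain ⟨n, hn⟩ := L.gen σ hσ
    exact ⟨n, by rw [hn, map_pow]⟩
  ord j c h1 h2 := by rw [← map_pow, L.ord j c h1 h2, map_one]

@[simp] theorem LocW.map_eta {A' B' : Type} [CommRing A'] [CommRing B'] {p v : ℕ}
    {A : ValuationSubring (AlgebraicClosure ℚ)} {R : GQ →* Matrix (Fin 2) (Fin 2) A'}
    (L : LocW p v A R) (φ : A' →+* B') {R' : GQ →* Matrix (Fin 2) (Fin 2) B'}
    (hR : ∀ g, (R g).map φ = R' g) : (LocW.map L φ hR).η (LocW.map L φ hR).σ₀ = φ (L.η L.σ₀) := rfl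

/-- the character is trivial if the representation is unramified -/
theorem LocW.eta_eq_one {A' B' : Type} [CommRing A'] [CommRing B'] {p v : ℕ}
    {A : ValuationSubring (AlgebraicClosure ℚ)} {R : GQ →* Matrix (Fin 2) (Fin 2) A'}
    (L : LocW p v A R) (φ : A' →+* B') (h1 : (R L.σ₀).map φ = 1) : φ (L.η L.σ₀) = 1 := by
  have h2 := congrArg (RingHom.mapMatrix φ) (L.eq L.σ₀ L.mem)
  have h3 : RingHom.mapMatrix φ (R L.σ₀) = 1 := h1
  have e : ∀ (a : A') (P : Matrix (Fin 2) (Fin 2) A'), RingHom.mapMatrix φ (a • P) =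
      φ a • RingHom.mapMatrix φ P := by
    intro a P
    ext i j
    simp only [RingHom.mapMatrix_apply, Matrix.map_apply, Matrix.smul_apply, smul_eq_mul, map_mul]
  rw [h3, map_add, e, e] at h2
  have h4 := congrArg (RingHom.mapMatrix φ) L.add
  have h5 := congrArg (RingHom.mapMatrix φ) L.mul
  rw [map_add, map_one] at h4
  rw [map_mul, map_zero] at h5
  set Q₁ := RingHom.mapMatrix φ L.P₁ with hQ₁
  set Q₂ := RingHom.mapMatrix φ L.P₂ with hQ₂
  have h6 : Q₁ * Q₁ = Q₁ := by
    have : Q₁ * (Q₁ + Q₂) = Q₁ := by rw [h4, mul_one]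
    rwa [mul_add, h5, add_zero] at this
  have h7 : Q₁ = φ (L.η L.σ₀) • Q₁ := by
    have : Q₁ * 1 = Q₁ * (φ (L.η L.σ₀) • Q₁ + φ (L.η' L.σ₀) • Q₂) := by rw [← h2]
    rw [mul_add, mul_smul_comm, mul_smul_comm, h5, h6, smul_zero, add_zero, mul_one] at this
    exact this
  have h8 : Q₁.trace = 1 := by
    have h := congrArg φ L.trace
    rw [map_one] at h
    rw [← h, Matrix.trace_fin_two, Matrix.trace_fin_two, map_add]
    rfl
  have h9 := congrArg Matrix.trace h7
  rw [Matrix.trace_smul, h8, smul_eq_mul, mul_one] at h9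
  exact h9.symm

/-! ### Maps out of the trace ring -/

section TT

variable {O T Y : Type} [CommRing O] [IsLocalRing O] [IsNoetherianRing O]
  [IsAdicComplete (maximalIdeal O) O] [CommRing T] [Algebra O T] [AddCommGroup Y] [Module O Y]
  [Module.Finite O Y] [Module.Free O Y] [Nontrivial Y] {p : ℕ} [hp : Fact p.Prime]
  {hpO : (p : O) ∈ maximalIdeal O}
  {S : Set ℕ} {t : GQ → ResidueField O} {ψ : T →ₐ[O] Module.End O Y}
  {θ : T →ₐ[O] ResidueField O} {ρ : GQ →* Module.End O Y} (h : HG hpO S t ψ θ ρ)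

theorem psiQ_X (g : GQ) : psiQ h.rel (MvPolynomial.X g) = ρ g + cycO hpO g • ρ g⁻¹ := by
  rw [psiQ, AlgHom.comp_apply, MvPolynomial.aeval_X, trS_spec]

/-- maps out of the trace ring -/
def TTlift {B : Type} [CommRing B] [Algebra O B] (b : GQ → B)
    (hb : ∀ f : MvPolynomial GQ O, psiQ h.rel f = 0 → MvPolynomial.aeval b f = 0) :
    h.TT →ₐ[O] B :=
  Ideal.Quotient.liftₐ (RingHom.ker (psiQ h.rel)) (MvPolynomial.aeval b) hb

theorem TTlift_tt {B : Type} [CommRing B] [Algebra O B] (b : GQ → B)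
    (hb : ∀ f : MvPolynomial GQ O, psiQ h.rel f = 0 → MvPolynomial.aeval b f = 0) (g : GQ) :
    TTlift h b hb (h.tt g) = b g := MvPolynomial.aeval_X _ _

theorem TT_ext {B : Type} [CommRing B] [Algebra O B] {φ φ' : h.TT →ₐ[O] B}
    (hφ : ∀ g, φ (h.tt g) = φ' (h.tt g)) : φ = φ' :=
  AlgHom.ext_of_adjoin_eq_top h.adjoin_tt (by rintro _ ⟨g, rfl⟩; exact hφ g)

/-- representation of elements of the trace ring -/
theorem exists_mk (a : h.TT) : ∃ f : MvPolynomial GQ O, BB.mk (psiQ h.rel) f = a :=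
  BB.mk_surjective _ a

theorem aeval_tt (f : MvPolynomial GQ O) :
    MvPolynomial.aeval h.tt f = (BB.mk (psiQ h.rel) f : h.TT) := by
  have h1 : (MvPolynomial.aeval h.tt : MvPolynomial GQ O →ₐ[O] h.TT) = BB.mk (psiQ h.rel) := by
    refine MvPolynomial.algHom_ext fun g => ?_
    rw [MvPolynomial.aeval_X]
    rfl
  exact congrArg (fun φ : MvPolynomial GQ O →ₐ[O] h.TT => φ f) h1

section R

variable [Invertible (2 : O)] {g₀ k₀ : GQ} (hgk : HG.IrrAt t g₀ k₀)

theorem R_map_of {B : Type} [CommRing B] [Algebra O B] [Invertible (2 : B)] (φ : h.TT →ₐ[O] B)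
    (r : GQ →* Matrix (Fin 2) (Fin 2) B) (hφ : ∀ g, φ (h.tt g) = (r g).trace)
    (hc : r complexConjugation = !![1, 0; 0, -1]) (h01 : r g₀ 0 1 = 1) (g : GQ) :
    (h.R hgk g).map φ = r g := by
  let u' : Bˣ := Units.map (φ : h.TT →+* B).toMonoidHom (h.uu hgk)
  have h1 : (h.R hgk g).map φ = RR (fun g => φ (h.tt g)) complexConjugation g₀ k₀ u' g :=
    map_RR (φ : h.TT →+* B) h.tt _ _ _ _ u' rfl g
  have h2 : (fun g => φ (h.tt g)) = fun g => (r g).trace := funext hφ
  rw [h1, h2]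
  refine RR_normal r hc h01 u' ?_ g
  rw [← h2]
  exact map_bc (φ : h.TT →+* B) h.tt complexConjugation g₀ k₀

end R

section R2

variable [Invertible (2 : O)] {g₀ k₀ : GQ} (hgk : HG.IrrAt t g₀ k₀)
  {T' Y' : Type} [CommRing T'] [Algebra O T'] [AddCommGroup Y'] [Module O Y']
  [Module.Finite O Y'] [Module.Free O Y'] [Nontrivial Y'] {S' : Set ℕ}
  {ψ' : T' →ₐ[O] Module.End O Y'}
  {θ' : T' →ₐ[O] ResidueField O} {ρ' : GQ →* Module.End O Y'} (h' : HG hpO S' t ψ' θ' ρ')

theorem R_map (φ : h.TT →ₐ[O] h'.TT) (hφ : ∀ g, φ (h.tt g) = h'.tt g) (g : GQ) :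
    (h.R hgk g).map φ = h'.R hgk g := by
  have h1 : (h.R hgk g).map φ = RR (fun g => φ (h.tt g)) complexConjugation g₀ k₀ (h'.uu hgk) g :=
    map_RR (φ : h.TT →+* h'.TT) h.tt _ _ _ _ _ (by
      rw [h.uu_eq hgk, h'.uu_eq hgk]
      have h2 := map_bc (φ : h.TT →+* h'.TT) h.tt complexConjugation g₀ k₀
      rw [h2]
      congr 1
      exact funext hφ) g
  have h2 : (fun g => φ (h.tt g)) = h'.tt := funext hφ
  rw [h1, h2]
  rfl

omit [Invertible (2 : O)] in
/-- compatible trace rings have compatible residue maps -/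
theorem theta_map (φ : h.TT →ₐ[O] h'.TT) (hφ : ∀ g, φ (h.tt g) = h'.tt g) (a : h.TT) :
    h'.theta (φ a) = h.theta a := by
  have h1 : h'.theta.comp φ = h.theta := TT_ext h fun g => by
    rw [AlgHom.comp_apply, hφ, h.theta_tt, h'.theta_tt]
  exact congrArg (fun f : h.TT →ₐ[O] ResidueField O => f a) h1

omit [Invertible (2 : O)] in
theorem mem_max_map (φ : h.TT →ₐ[O] h'.TT) (hφ : ∀ g, φ (h.tt g) = h'.tt g) {a : h.TT} :
    φ a ∈ maximalIdeal h'.TT ↔ a ∈ maximalIdeal h.TT := by
  rw [← h'.theta_eq_zero, theta_map h h' φ hφ, h.theta_eq_zero]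

omit [Invertible (2 : O)] in
theorem map_surjective (φ : h.TT →ₐ[O] h'.TT) (hφ : ∀ g, φ (h.tt g) = h'.tt g) :
    Function.Surjective φ := by
  have h1 : φ.range = ⊤ := by
    rw [eq_top_iff, ← h'.adjoin_tt]
    exact Algebra.adjoin_le (by rintro _ ⟨g, rfl⟩; exact ⟨h.tt g, hφ g⟩)
  intro a
  have h2 : a ∈ φ.range := by rw [h1]; trivial
  exact h2

omit [Invertible (2 : O)] in
/-- the map of trace rings defined by an injective equivariant map of modules -/
theorem exists_TT_of_inj (i : Y' →ₗ[O] Y) (hi : Function.Injective i)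
    (hc : ∀ g y, i (ρ' g y) = ρ g (i y)) : ∃ φ : h.TT →ₐ[O] h'.TT, (∀ g, φ (h.tt g) = h'.tt g) ∧
      ∀ a y, i (φ a • y) = a • i y := by
  have key : ∀ (f : MvPolynomial GQ O) (y : Y'), i (psiQ h'.rel f y) = psiQ h.rel f (i y) := by
    intro f
    induction f using MvPolynomial.induction_on with
    | C r =>
      intro y
      have e1 : psiQ h'.rel (MvPolynomial.C r) = algebraMap O _ r := (psiQ h'.rel).commutes r
      have e2 : psiQ h.rel (MvPolynomial.C r) = algebraMap O _ r := (psiQ h.rel).commutes r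
      rw [e1, e2, Module.algebraMap_end_apply, Module.algebraMap_end_apply, map_smul]
    | add a b ha hb =>
      intro y
      rw [map_add, map_add, LinearMap.add_apply, LinearMap.add_apply, map_add, ha, hb]
    | mul_X a g ha =>
      intro y
      rw [map_mul, map_mul, Module.End.mul_apply, Module.End.mul_apply, ha, psiQ_X h', psiQ_X h,
        LinearMap.add_apply, LinearMap.add_apply, LinearMap.smul_apply, LinearMap.smul_apply,
        map_add, map_smul, hc, hc]
  have hb : ∀ f : MvPolynomial GQ O, psiQ h.rel f = 0 → MvPolynomial.aeval h'.tt f = 0 := by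
    intro f hf
    rw [aeval_tt]
    refine (BB.mk_eq_zero (psiQ h'.rel)).2 (LinearMap.ext fun y => hi ?_)
    rw [key, hf, LinearMap.zero_apply, LinearMap.zero_apply, map_zero]
  refine ⟨TTlift h h'.tt hb, TTlift_tt h _ _, fun a y => ?_⟩
  obtain ⟨f, rfl⟩ := exists_mk h a
  have e1 : TTlift h h'.tt hb (BB.mk (psiQ h.rel) f) = MvPolynomial.aeval h'.tt f := rfl
  rw [e1, aeval_tt]
  exact key f y

end R2

end TT

end

end Fermat.Agent.JT
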