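import Fermat.Agent.TW.Final
import Fermat.Agent.JT.Tr

/-!
# The Taylor–Wiles levels with arbitrary local data
-/

set_option autoImplicit false
set_option linter.unusedSectionVars false
set_option linter.style.haveILetI false

open IsLocalRing
open scoped TensorProduct
open Fermat.Agent.KumG Fermat.Agent.GalRep Fermat.Agent.Places Fermat.Agent.Cheb Fermat.Agent.TW

namespace Fermat.Agent.JT

noncomputable section

/-- **The data at a Taylor–Wiles level**, with arbitrary local data at the Taylor–Wiles primes. The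
idempotent `e` and the numbers `m, c` are parameters. -/
structure Lev0 {O : Type} [CommRing O] [IsLocalRing O] [IsNoetherianRing O]
    [IsAdicComplete (maximalIdeal O) O] {p : ℕ} [hp : Fact p.Prime]
    (hpO : (p : O) ∈ maximalIdeal O) (ι : AlgebraicClosure ℚ →+* ℂ) [Invertible (2 : O)]
    {t : GQ → ResidueField O} {g₀ k₀ : GQ} (hgk : HG.IrrAt t g₀ k₀) {N : ℕ} [NeZero N]
    {S : Set ℕ} (hNS : ∀ l, l.Prime → l ∣ N → l ∈ S) (θ : TS O S →ₐ[O] ResidueField O)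
    {r : ℕ} (v : Fin r → ℕ) (A : Fin r → ValuationSubring (AlgebraicClosure ℚ))
    (m c : Fin r → ℕ) (e : TS O S) (B : ℕ) : Prop where
  hvN : ∀ i, v i ∣ N
  [hH : Fact ((-1 : (ZMod N)ˣ) ∈ HQ hvN c)]
  hΔ : IsPGroup p (DG N (HQ hvN c))
  he : θ e = 1
  heH : IsLoc (phiH O (HQ hvN c) hNS) θ e
  [nt : Nontrivial (YH (HQ hvN c) hNS e)]
  [fr : Module.Free O (YH (HQ hvN c) hNS e)]
  hg : HG hpO S t (psiY (HQ hvN c) hNS e) (thetaD θ N) (rhoY hpO ι (HQ hvN c) hNS e)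
  reg : ∀ y : YH (HQ hvN c) hNS e, (p : O) • y = 0 → y = 0
  free : ∀ L : ∀ i, LocW p (v i) (A i) (hg.R hgk),
    ∃ (d : ℕ) (E : hg.MQ ≃ₗ[O] (Fin d → GR O fun i => p ^ m i))
      (f : hg.TT →ₐ[O] Matrix (Fin d) (Fin d) (GR O fun i => p ^ m i)), 0 < d ∧ 2 * d ≤ B ∧
      (∀ a m, E (a • m) = (f a).mulVec (E m)) ∧
      ∀ i, f ((L i).η (L i).σ₀) = Matrix.scalar (Fin d) (GR.δ O (fun i => p ^ m i) i)

section

variable {O : Type} [CommRing O] [IsDomain O] [IsDiscreteValuationRing O]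
  [IsAdicComplete (maximalIdeal O) O] [CharZero O] {p : ℕ} [hp : Fact p.Prime]
  (hpO : (p : O) ∈ maximalIdeal O)

/-- the idempotent `e` localises all the relevant modules at the level `N = N₀ · ∏ v i` -/
structure EOK {N₀ : ℕ} {r : ℕ} {v : Fin r → ℕ} {N : ℕ} [NeZero N]
    [∀ s : Finset (Fin r), NeZero (NN N₀ v s)] {S : Set ℕ}
    (hNNS : ∀ s, ∀ l, l.Prime → l ∣ NN N₀ v s → l ∈ S) (hNS : ∀ l, l.Prime → l ∣ N → l ∈ S)
    (H : Subgroup (ZMod N)ˣ) [hH : Fact ((-1 : (ZMod N)ˣ) ∈ H)]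
    (θ : TS O S →ₐ[O] ResidueField O) (e : TS O S) : Prop where
  one : θ e = 1
  G : ∀ s, IsLoc (phiG O (hNNS s)) θ e
  H : IsLoc (phiH O H hNS) θ e

/-- a common idempotent for a finite family of base levels -/
theorem exists_e_fam {J : Type} [Finite J] {r : ℕ} {v : Fin r → ℕ} (N₀ N : J → ℕ)
    [∀ j, NeZero (N j)] [∀ j (s : Finset (Fin r)), NeZero (NN (N₀ j) v s)] {S : Set ℕ}
    (hNNS : ∀ j s, ∀ l, l.Prime → l ∣ NN (N₀ j) v s → l ∈ S)
    (hNS : ∀ j, ∀ l, l.Prime → l ∣ N j → l ∈ S)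
    (H : ∀ j, Subgroup (ZMod (N j))ˣ) [hH : ∀ j, Fact ((-1 : (ZMod (N j))ˣ) ∈ H j)]
    (θ : TS O S →ₐ[O] ResidueField O) :
    ∃ e : TS O S, ∀ j, EOK (hNNS j) (hNS j) (H j) θ e := by
  let φ : ∀ i : J × (Finset (Fin r) ⊕ Unit), TS O S →ₐ[O]
      Module.End O (XF O (N₀ i.1) v (N i.1) (H i.1) i.2) := fun i =>
    match i with
    | (j, Sum.inl s) => phiG O (hNNS j s)
    | (j, Sum.inr _) => phiH O (H j) (hNS j)
  obtain ⟨e, he0, he1, he2, he3⟩ := exists_idem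
    (fun i : J × (Finset (Fin r) ⊕ Unit) => XF O (N₀ i.1) v (N i.1) (H i.1) i.2) φ θ
  refine ⟨e, fun j => ⟨he0, fun s => ⟨he1 (j, Sum.inl s), fun a ha => ?_, fun a ha => ?_⟩,
    he1 (j, Sum.inr ()), fun a ha => ?_, fun a ha => ?_⟩⟩
  · obtain ⟨s', hs'⟩ := he2 a ha
    exact ⟨s', hs' (j, Sum.inl s)⟩
  · obtain ⟨n, hn⟩ := he3 a ha
    exact ⟨n, hn (j, Sum.inl s)⟩
  · obtain ⟨s', hs'⟩ := he2 a ha
    exact ⟨s', hs' (j, Sum.inr ())⟩
  · obtain ⟨n, hn⟩ := he3 a ha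
    exact ⟨n, hn (j, Sum.inr ())⟩

include hpO in
/-- **Existence of the Taylor–Wiles levels.** -/
theorem exists_lev0 (hp2 : p ≠ 2) (ι : AlgebraicClosure ℚ →+* ℂ)
    [Invertible (2 : O)] {t D : GQ → ResidueField O} {g₀ k₀ : GQ} (hgk : HG.IrrAt t g₀ k₀)
    {N₀ : ℕ} [NeZero N₀] (hN₀ : 3 ≤ N₀) {S₀ : Set ℕ} (hS₀ : S₀.Finite) (hpS₀ : p ∈ S₀)
    (hNS₀ : ∀ l, l.Prime → l ∣ N₀ → l ∈ S₀) {tl : ℕ → ResidueField O}
    (ht : IsPseudoRep t D) (htc : IsLocConst t)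
    (hfrob : ∀ l : ℕ, l.Prime → l ∉ S₀ → ∀ A : ValuationSubring (AlgebraicClosure ℚ),
      A.LiesOverPrime l → ∀ τ : GQ, A.IsFrobeniusAt τ l → t τ = tl l ∧ D τ = l)
    (hocc : ∀ s : TS O S₀, phiG O hNS₀ s = 0 → thS tl S₀ s = 0)
    (hcom : ∃ σ τ, t (σ * τ * σ⁻¹ * τ⁻¹) ≠ 2)
    {r : ℕ} {v : Fin r → ℕ} {A : Fin r → ValuationSubring (AlgebraicClosure ℚ)}
    {Φ : Fin r → GQ} (hinj : Function.Injective v) (hvS : ∀ i, v i ∉ S₀)
    {m c : Fin r → ℕ} (hmc : ∀ i, v i - 1 = p ^ m i * c i) (hc : ∀ i, ¬ p ∣ c i)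
    (hm : ∀ i, 1 ≤ m i) (hv : ∀ i, TWp p t (v i) (A i) (Φ i))
    {N : ℕ} [NeZero N] (hN : N = N₀ * ∏ i, v i) {S : Set ℕ} (hSS : S = S₀ ∪ Set.range v)
    (hNS : ∀ l, l.Prime → l ∣ N → l ∈ S) (hvN : ∀ i, v i ∣ N)
    [hH : Fact ((-1 : (ZMod N)ˣ) ∈ HQ hvN c)] [∀ s : Finset (Fin r), NeZero (NN N₀ v s)]
    (hNNS : ∀ s, ∀ l, l.Prime → l ∣ NN N₀ v s → l ∈ S) {e : TS O S}
    (heok : EOK hNNS hNS (HQ hvN c) (thS tl S) e) :
    Lev0 hpO ι hgk hNS (thS tl S) v A m c e (2 ^ r * Module.finrank O (XG O N₀)) := by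
  classical
  have hS₀S : S₀ ⊆ S := by rw [hSS]; exact Set.subset_union_left
  have hS : S.Finite := by rw [hSS]; exact hS₀.union (Set.finite_range v)
  have hpS : p ∈ S := hS₀S hpS₀
  have hvN₀ : ∀ i, ¬ v i ∣ N₀ := fun i h => hvS i (hNS₀ _ (hv i).prime h)
  have hw : TWN p N₀ v N m c := ⟨hp.out, hp2, fun i => (hv i).prime, hinj, hvN₀, hN, hmc, hc, hm⟩
  have hΔ : IsPGroup p (DG N (HQ hw.dvd c)) := hw.isPGroup
  obtain ⟨he, heG', heH⟩ := heok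
  have hNN : NN N₀ v Finset.univ = N := hN.symm
  obtain ⟨heG, hrk⟩ := isLoc_congr hNN (hNNS _) hNS (heG' Finset.univ)
  -- Frobenius
  have hfrobS : ∀ l : IS S, ∀ A : ValuationSubring (AlgebraicClosure ℚ),
      A.LiesOverPrime (l : ℕ) → ∀ τ : GQ, A.IsFrobeniusAt τ (l : ℕ) →
        t τ = thS tl S (MvPolynomial.X l) ∧ D τ = (l : ℕ) := by
    intro l A hA τ hτ
    rw [thS_X]
    exact hfrob l l.2.1 (fun h => l.2.2 (hS₀S h)) A hA τ hτ
  -- ranks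
  have h0 := finrank_pos_of_occ hS₀S (N' := NN N₀ v ∅)
    (by rw [NN, Finset.prod_empty, mul_one]) hNS₀ (hNNS ∅) tl hocc he (heG' ∅)
  have hrk2 := finrank_NN hpO hS hpS ι ht htc hfrobS hinj hvN₀ hv hNNS heG' Finset.univ
  rw [hrk, Finset.card_univ, Fintype.card_fin] at hrk2
  -- the auxiliary prime
  obtain ⟨l, hl, hlS, hlN, hl1, B, hB, τ, hτ, htτ⟩ := exists_aux (k := ResidueField O) (p := p)
    (by rw [← map_natCast (residue O)]; exact (IsLocalRing.residue_eq_zero_iff _).2 hpO)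
    ht htc (S₀ := S₀) (fun l hl hlS A hA τ hτ => (hfrob l hl hlS A hA τ hτ).2) hcom N hS hS₀S
  have hi : thS tl S (eisP O ⟨l, hl, hlS⟩) ≠ 0 := by
    rw [eisP, map_sub, thS_X, ← MvPolynomial.algebraMap_eq, AlgHom.commutes, map_natCast,
      Nat.cast_add, Nat.cast_one]
    change tl l - ((l : ResidueField O) + 1) ≠ 0
    rw [hl1, ← (hfrob l hl (fun h => hlS (hS₀S h)) B hB τ hτ).1]
    intro h
    apply htτ
    linear_combination h
  -- the basis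
  haveI : Module.Free O (part (phiG O hNS) e) := free_part heG.idem
  let b₀ := Module.finBasis O (part (phiG O hNS) e)
  obtain ⟨b, hb⟩ := exists_bY (H := HQ hw.dvd c) hpO hp2 hΔ heG heH hi hlN b₀
  haveI fr : Module.Free O (YH (HQ hw.dvd c) hNS e) :=
    free_part (isLoc_phiD hpO hp2 hΔ heH).idem
  haveI : Nonempty (Fin (Module.finrank O (part (phiG O hNS) e))) := by
    rw [← Fin.pos_iff_nonempty, hrk2]
    exact Nat.mul_pos (pow_pos two_pos r) h0.1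
  haveI nt : Nontrivial (YH (HQ hw.dvd c) hNS e) := b.repr.toEquiv.nontrivial
  have hg := hg_YH hpO ι (H := HQ hw.dvd c) hS hpS hp2 hΔ heH ht htc hfrobS
  have hreg : ∀ y : YH (HQ hw.dvd c) hNS e, (p : O) • y = 0 → y = 0 := by
    intro y hy
    haveI : Module.IsTorsionFree O (YH (HQ hw.dvd c) hNS e) := inferInstance
    exact (smul_eq_zero.1 hy).resolve_left (Nat.cast_ne_zero.2 hp.out.ne_zero)
  refine { hvN := hvN, hΔ := hΔ, he := he, heH := heH, hg := hg, reg := hreg, free := fun L => ?_ }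
  -- the generators
  obtain ⟨d, h1, h2, h3, h4⟩ := hw.exists_gen
  have hP : ∀ i, ∃ k, p ^ m i = p ^ k := fun i => ⟨m i, rfl⟩
  have hgp : ∀ i, (L i).η (L i).σ₀ ^ p ^ m i = 1 := fun i => (L i).ord (m i) (c i) (hmc i) (hc i)
  let g : GR O (fun i => p ^ m i) →ₐ[O] hg.TT := GR.lift (fun i => (L i).η (L i).σ₀) hgp
  have hgδ : ∀ i, g (GR.δ O (fun i => p ^ m i) i) = (L i).η (L i).σ₀ := fun i => GR.lift_δ _ _ i
  have hgen : Subgroup.closure (Set.range fun i =>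
      (QuotientGroup.mk (d i) : DG N (HQ hw.dvd c))) = ⊤ := by
    rw [eq_top_iff]
    rintro δ -
    obtain ⟨x, rfl⟩ := QuotientGroup.mk_surjective δ
    obtain ⟨a, ha⟩ := hw.gen_all h2 h3 x
    rw [ha]
    have h5 : (QuotientGroup.mk (∏ j, d j ^ a j) : DG N (HQ hw.dvd c)) =
        QuotientGroup.mk' (HQ hw.dvd c) (∏ j, d j ^ a j) := rfl
    rw [h5]
    have h6 : ∏ j, d j ^ a j ∈ (Subgroup.closure (Set.range fun i =>
        (QuotientGroup.mk (d i) : DG N (HQ hw.dvd c)))).comap (QuotientGroup.mk' (HQ hw.dvd c)) :=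
      Subgroup.prod_mem _ fun i _ => Subgroup.pow_mem _ (by
        have h7 : (QuotientGroup.mk (d i) : DG N (HQ hw.dvd c)) ∈
            Subgroup.closure (Set.range fun i => (QuotientGroup.mk (d i) : DG N (HQ hw.dvd c))) :=
          Subgroup.subset_closure ⟨i, rfl⟩
        exact h7) _
    exact h6
  have hbij := bijective_D (O := O) (B := BB (psiY (HQ hw.dvd c) hNS e)) (TT := hg.TT)
    (P := fun i => p ^ m i) hpO hP g (dlB hNS e) b hb
    (fun i => QuotientGroup.mk (d i)) hgen (hw.card_ge h2 h4) (fun i y => by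
      obtain ⟨z, hz⟩ := exists_DG hpO ι hw hgk hg hS hpS hN₀ h1 h3 h4 b hb i (hv i).hA (hv i).ne
        (L i) y
      refine ⟨z, ?_⟩
      rw [hz, hgδ, sub_smul, sub_smul, one_smul, one_smul, hg.incB_smul])
  haveI := GR.isLocalRing (O := O) (P := fun i => p ^ m i) hpO hP
  obtain ⟨d', E, f, hd', hE, hf⟩ := exists_matrix g (hg.EE hgk) _ hbij
  rw [Fintype.card_fin] at hd'
  refine ⟨d', E, f, ?_, ?_, hE, fun i => ?_⟩
  · have := Nat.mul_pos (pow_pos two_pos r) h0.1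
    omega
  · rw [hd', hrk2]
    exact Nat.mul_le_mul_left _ h0.2
  · rw [← hgδ, hf]

end

end

end Fermat.Agent.JT
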