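import Fermat.Agent.Sel.FlatD
import Fermat.Agent.JT.Joint
import Fermat.Agent.Sel.LocC

/-!
# Flatness of all torsion levels of a lattice with Galois action
-/

set_option autoImplicit false
set_option linter.unusedSectionVars false
set_option linter.style.haveILetI false

open scoped TensorProduct
open IsLocalRing Matrix
open Fermat.Agent.KumG Fermat.Agent.GalRep Fermat.Agent.Places Fermat.Agent.Cheb Fermat.Agent.TW
open Fermat.Agent.FFG Fermat.Agent.Flat Fermat.Agent.FlT Fermat.Agent.Sel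

namespace Fermat.Agent.JT

noncomputable section

local notation "Ω" => AlgebraicClosure ℚ

section prod

variable {R K : Type} [CommRing R] [IsDomain R] [IsPrincipalIdealRing R] [Field K] [Algebra R K]
  [FixBase R K] {V₁ V₂ : Type} [AddCommGroup V₁] [AddCommGroup V₂] [Finite V₁] [Finite V₂]
  {act₁ : (K ≃ₐ[R] K) → V₁ → V₁} {act₂ : (K ≃ₐ[R] K) → V₂ → V₂}
  {H₁ : Subalgebra R (V₁ → K)} {H₂ : Subalgebra R (V₂ → K)}

/-- the family of two groups -/
def two (V₁ V₂ : Type) : Bool → Type
  | true => V₁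
  | false => V₂

instance (b : Bool) : AddCommGroup (two V₁ V₂ b) :=
  match b with
  | true => inferInstanceAs (AddCommGroup V₁)
  | false => inferInstanceAs (AddCommGroup V₂)

instance (b : Bool) : Finite (two V₁ V₂ b) :=
  match b with
  | true => inferInstanceAs (Finite V₁)
  | false => inferInstanceAs (Finite V₂)

theorem exists_prod (h₁ : IsHopfFn act₁ H₁) (h₂ : IsHopfFn act₂ H₂) :
    ∃ H : Subalgebra R (V₁ × V₂ → K),
      IsHopfFn (fun σ (P : V₁ × V₂) => (act₁ σ P.1, act₂ σ P.2)) H := by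
  classical
  let ac : ∀ b : Bool, (K ≃ₐ[R] K) → two V₁ V₂ b → two V₁ V₂ b := fun b =>
    match b with
    | true => act₁
    | false => act₂
  let HH : ∀ b : Bool, Subalgebra R (two V₁ V₂ b → K) := fun b =>
    match b with
    | true => H₁
    | false => H₂
  have h : ∀ b, IsHopfFn (ac b) (HH b) := fun b =>
    match b with
    | true => h₁
    | false => h₂
  let i : V₁ × V₂ →+ ∀ b, two V₁ V₂ b :=
    { toFun := fun x b =>
        match b with
        | true => x.1
        | false => x.2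
      map_zero' := by
        funext b
        cases b <;> rfl
      map_add' := fun x y => by
        funext b
        cases b <;> rfl }
  have hi : Function.Injective i := by
    intro x y hxy
    exact Prod.ext (congrFun hxy true) (congrFun hxy false)
  refine ⟨_, (IsHopfFn.pi h).restrict (i := i) hi fun σ s => ?_⟩
  funext b
  cases b <;> rfl

end prod

section all

variable {O : Type} [CommRing O] [IsNoetherianRing O] (p : ℕ) [hp : Fact p.Prime]
  {P : Type} [AddCommGroup P] [Module O P]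

variable (O P) in
/-- the reduction modulo `p ^ N` -/
abbrev PN (N : ℕ) : Type := P ⧸ ((Ideal.span {((p ^ N : ℕ) : O)}) • (⊤ : Submodule O P))

/-- the action on the reduction -/
def actN (N : ℕ) (f : P →ₗ[O] P) : PN O p P N →ₗ[O] PN O p P N :=
  Submodule.mapQ _ _ f (Submodule.smul_top_le_comap_smul_top _ f)

theorem actN_mk (N : ℕ) (f : P →ₗ[O] P) (x : P) :
    actN p N f (Submodule.Quotient.mk x) = Submodule.Quotient.mk (f x) := rfl

/-- all the torsion levels are flat -/
def FlatAll (A : ValuationSubring (AlgebraicClosure ℚ)) (ρP : GQ → P →ₗ[O] P) : Prop :=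
  ∀ N : ℕ, Finite (PN O p P N) ∧ ∃ H : Subalgebra (R0 A) (PN O p P N → Ω),
    IsHopfFn (actI (A := A) fun g x => actN p N (ρP g) x) H

variable {p}

theorem mk_eq_zero {N : ℕ} {x : P} : (Submodule.Quotient.mk x : PN O p P N) = 0 ↔
    ∃ y, x = ((p ^ N : ℕ) : O) • y := by
  rw [Submodule.Quotient.mk_eq_zero, Submodule.ideal_span_singleton_smul,
    Submodule.mem_smul_pointwise_iff_exists]
  constructor
  · rintro ⟨y, -, hy⟩
    exact ⟨y, hy.symm⟩
  · rintro ⟨y, hy⟩
    exact ⟨y, trivial, hy.symm⟩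

theorem finite_PN [Module.Finite O P] (N : ℕ)
    [Finite (O ⧸ Ideal.span {((p ^ N : ℕ) : O)})] : Finite (PN O p P N) := by
  haveI : Module.Finite (O ⧸ Ideal.span {((p ^ N : ℕ) : O)}) (PN O p P N) :=
    Module.Finite.of_restrictScalars_finite O _ _
  exact Module.finite_of_finite (O ⧸ Ideal.span {((p ^ N : ℕ) : O)})

/-- products -/
theorem FlatAll.prod {A : ValuationSubring (AlgebraicClosure ℚ)} (hA : A.LiesOverPrime p)
    {P' : Type} [AddCommGroup P'] [Module O P'] {ρP : GQ → P →ₗ[O] P} {ρP' : GQ → P' →ₗ[O] P'}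
    (h : FlatAll p A ρP) (h' : FlatAll p A ρP') :
    FlatAll p A (fun g => LinearMap.prodMap (ρP g) (ρP' g)) := by
  haveI := isPrincipalIdealRing_R0 hA
  intro N
  obtain ⟨hf, H, hH⟩ := h N
  obtain ⟨hf', H', hH'⟩ := h' N
  obtain ⟨H₂, hH₂⟩ := exists_prod hH hH'
  let i : PN O p (P × P') N →ₗ[O] PN O p P N × PN O p P' N :=
    (Submodule.mapQ _ _ (LinearMap.fst O P P') (Submodule.smul_top_le_comap_smul_top _ _)).prod
      (Submodule.mapQ _ _ (LinearMap.snd O P P') (Submodule.smul_top_le_comap_smul_top _ _))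
  have hi : Function.Injective i := by
    rw [injective_iff_map_eq_zero]
    intro x hx
    obtain ⟨⟨x, x'⟩, rfl⟩ := Submodule.Quotient.mk_surjective _ x
    have h1 : (Submodule.Quotient.mk x : PN O p P N) = 0 := congrArg Prod.fst hx
    have h2 : (Submodule.Quotient.mk x' : PN O p P' N) = 0 := congrArg Prod.snd hx
    obtain ⟨y, hy⟩ := mk_eq_zero.1 h1
    obtain ⟨y', hy'⟩ := mk_eq_zero.1 h2
    exact mk_eq_zero.2 ⟨(y, y'), Prod.ext hy hy'⟩
  refine ⟨Finite.of_injective i hi, _, hH₂.restrict (i := i.toAddMonoidHom) hi fun σ s => ?_⟩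
  obtain ⟨⟨x, x'⟩, rfl⟩ := Submodule.Quotient.mk_surjective _ s
  rfl

/-- **subquotients of powers** -/
theorem FlatAll.exists_flat {A : ValuationSubring (AlgebraicClosure ℚ)} (hA : A.LiesOverPrime p)
    [Module.Finite O P] {ρP : GQ → P →ₗ[O] P} (h : FlatAll p A ρP)
    {J B : Type} [Fintype J] [AddCommGroup B] [Module O B]
    (Φ : B →ₗ[O] (J → P)) (hΦ : Function.Injective Φ) (ac : GQ → B → B)
    (hac : ∀ g x j, Φ (ac g x) j = ρP g (Φ x j))
    {V' : Type} [AddCommGroup V'] (q : B →+ V') (hq : Function.Surjective q)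
    {n : ℕ} (hqn : ∀ x, q (((p ^ n : ℕ) : O) • x) = 0) (act' : GQ → V' → V')
    (hact' : ∀ g x, q (ac g x) = act' g (q x)) :
    ∃ 𝓗 : Subalgebra (R0 A) (V' → AlgebraicClosure ℚ), IsHopfFn (actI (A := A) act') 𝓗 := by
  haveI := isPrincipalIdealRing_R0 hA
  obtain ⟨c, hc⟩ := exists_div_bound Φ hΦ (p : O)
  obtain ⟨hf, H, hH⟩ := h (n + c)
  have hpi := IsHopfFn.pi (J := J) (fun _ => hH)
  let w : B → (J → PN O p P (n + c)) := fun x j => Submodule.Quotient.mk (Φ x j)
  have hw : ∀ x, w x = 0 → q x = 0 := by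
    intro x hx
    have h1 : ∀ j, ∃ y : P, Φ x j = ((p ^ (n + c) : ℕ) : O) • y := fun j =>
      mk_eq_zero.1 (congrFun hx j)
    choose y hy using h1
    obtain ⟨z, hz⟩ := hc n x y (by rw [← Nat.cast_pow]; exact funext hy)
    rw [hz, ← Nat.cast_pow, hqn]
  let C : AddSubgroup ((J → PN O p P (n + c)) × V') :=
    { carrier := {z | ∃ x : B, z = (w x, q x)}
      add_mem' := by
        rintro _ _ ⟨x, rfl⟩ ⟨y, rfl⟩
        refine ⟨x + y, Prod.ext (funext fun j => ?_) (map_add q x y).symm⟩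
        change Submodule.Quotient.mk (Φ x j) + Submodule.Quotient.mk (Φ y j) =
          (Submodule.Quotient.mk (Φ (x + y) j) : PN O p P (n + c))
        rw [map_add, Pi.add_apply, Submodule.Quotient.mk_add]
      zero_mem' := ⟨0, Prod.ext (funext fun j => by
        change (0 : PN O p P (n + c)) = Submodule.Quotient.mk (Φ 0 j)
        rw [map_zero, Pi.zero_apply, Submodule.Quotient.mk_zero]) (map_zero q).symm⟩
      neg_mem' := by
        rintro _ ⟨x, rfl⟩
        refine ⟨-x, Prod.ext (funext fun j => ?_) (map_neg q x).symm⟩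
        change -Submodule.Quotient.mk (Φ x j) =
          (Submodule.Quotient.mk (Φ (-x) j) : PN O p P (n + c))
        rw [map_neg, Pi.neg_apply, Submodule.Quotient.mk_neg] }
  refine exists_of_corr hpi C ?_ ?_ ?_
  · rintro v ⟨x, hx⟩
    rw [Prod.mk.injEq] at hx
    rw [hx.2]
    exact hw x hx.1.symm
  · intro v
    obtain ⟨x, rfl⟩ := hq v
    exact ⟨w x, x, rfl⟩
  · rintro γ _ _ ⟨x, hx⟩
    rw [Prod.mk.injEq] at hx
    obtain ⟨rfl, rfl⟩ := hx
    refine ⟨ac (rq γ) x, Prod.ext (funext fun j => ?_) (hact' _ _).symm⟩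
    change actN p (n + c) (ρP (rq γ)) (Submodule.Quotient.mk (Φ x j)) =
      (Submodule.Quotient.mk (Φ (ac (rq γ) x) j) : PN O p P (n + c))
    rw [hac, actN_mk]

end all

section lev

variable {O T Y : Type} [CommRing O] [IsLocalRing O] [IsNoetherianRing O]
  [IsAdicComplete (maximalIdeal O) O] [CommRing T] [Algebra O T] [AddCommGroup Y] [Module O Y]
  [Module.Finite O Y] [Module.Free O Y] [Nontrivial Y] {p : ℕ} [hp : Fact p.Prime]
  {hpO : (p : O) ∈ maximalIdeal O}
  {S : Set ℕ} {t : GQ → ResidueField O} {ψ : T →ₐ[O] Module.End O Y}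
  {θ : T →ₐ[O] ResidueField O} {ρ : GQ →* Module.End O Y} (h : HG hpO S t ψ θ ρ)
  [Invertible (2 : O)] {g₀ k₀ : GQ} (hgk : HG.IrrAt t g₀ k₀)

include h hgk in
/-- **Flatness at `p`** of the modules killed by `p` on which Galois acts through the trace ring. -/
theorem flC_of_lam (hp2 : p ≠ 2)
    {A : ValuationSubring (AlgebraicClosure ℚ)} (hA : A.LiesOverPrime p)
    (hfl : FlatAll p A (fun g => ρ g))
    {T' : Type} [CommRing T'] [Algebra O T'] [Module.Finite O T'] [Invertible (2 : T')]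
    (lam : h.TT →ₐ[O] T') {V : Type} [AddCommGroup V] [Module T' V] [Module.Finite T' V]
    {ρV : GQ →* Module.End T' V} {D : GQ →* T'} {t' : GQ → T'} (hV : IsQRep ρV D t')
    (hDc : D complexConjugation = -1) (htt : ∀ g, lam (h.tt g) = t' g) [Finite V]
    (hpV : ∀ v : V, p • v = 0) {U : Type} [AddCommGroup U] [Finite U] (E : V ≃+ U)
    (act : GQ → U → U) (hact : ∀ σ v, E (ρV σ v) = act σ (E v)) :
    FlC A hA U act := by
  obtain ⟨J, B, iJ, iB1, iB2, Φ, Ψ, ac, hΨn, hΦ, hΨ, hΦac, hΨac⟩ := exists_rel h hgk lam hV hDc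
    htt
  obtain ⟨𝓗, h𝓗⟩ := hfl.exists_flat hA Φ hΦ ac hΦac
    ((E : V →+ U).comp Ψ) (E.surjective.comp hΨ) (n := 1)
    (fun x => by
      change E (Ψ _) = 0
      rw [hΨn, pow_one, hpV, map_zero])
    act (fun g x => by
      change E (Ψ _) = act g (E (Ψ x))
      rw [hΨac, hact])
  refine flC_of_isHopfFn hA hp2 h𝓗 fun u => ?_
  obtain ⟨v, rfl⟩ := E.surjective u
  rw [← map_nsmul, hpV, map_zero]

variable {I : Ideal h.TT} {D : h.TT → ResidueField O}
  (hD : IsDer h.theta.toRingHom (Set.range (algebraMap O h.TT)) I D)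

/-- the homomorphism to the dual numbers -/
def lamD : h.TT →ₐ[O] DualNumber (ResidueField O) where
  toFun a := TrivSqZeroExt.inl (h.theta a) + TrivSqZeroExt.inr (D a)
  map_one' := by rw [map_one, hD.one, TrivSqZeroExt.inr_zero, add_zero, TrivSqZeroExt.inl_one]
  map_mul' a b := by
    rw [map_mul, hD.mul]
    ext
    · simp
    · simp
      ring
  map_zero' := by rw [map_zero, hD.zero, TrivSqZeroExt.inr_zero, add_zero, TrivSqZeroExt.inl_zero]
  map_add' a b := by
    rw [map_add, hD.add]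
    ext
    · simp
    · simp
  commutes' c := by
    rw [AlgHom.commutes, hD.zeroO _ ⟨c, rfl⟩, TrivSqZeroExt.inr_zero, add_zero]
    rfl

theorem lamD_fst (a : h.TT) : (lamD h hD a).fst = h.theta a := by
  change (TrivSqZeroExt.inl (h.theta a) + TrivSqZeroExt.inr (D a)).fst = _
  simp

theorem lamD_snd (a : h.TT) : (lamD h hD a).snd = D a := by
  change (TrivSqZeroExt.inl (h.theta a) + TrivSqZeroExt.inr (D a)).snd = _
  simp

include h hgk hD in
/-- **The tangent cocycles are flat at `p`.** -/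
theorem flC_cD [Finite (ResidueField O)] (hp2 : p ≠ 2)
    {A : ValuationSubring (AlgebraicClosure ℚ)} (hA : A.LiesOverPrime p)
    (hfl : FlatAll p A (fun g => ρ g)) :
    FlC A hA ((Fin 2 → ResidueField O) × (Fin 2 → ResidueField O))
      (actE (endV (redR (h.R hgk) h.theta.toRingHom))
        fun σ => Matrix.toLinAlgEquiv' (cD (h.R hgk) h.theta.toRingHom D σ)) := by
  let k := ResidueField O
  letI : Invertible (2 : DualNumber k) :=
    (Invertible.map (algebraMap O (DualNumber k)) 2).copy 2 (by rw [map_ofNat])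
  haveI : Finite (DualNumber k) := inferInstanceAs (Finite (k × k))
  let M : GQ →* Matrix (Fin 2) (Fin 2) (DualNumber k) :=
    ((lamD h hD).toRingHom.mapMatrix : Matrix (Fin 2) (Fin 2) h.TT →+*
      Matrix (Fin 2) (Fin 2) (DualNumber k)).toMonoidHom.comp (h.R hgk)
  have hM : ∀ σ, M σ = (h.R hgk σ).map (lamD h hD) := fun σ => rfl
  have hk : ∀ x : k, (p : ℕ) • x = 0 := by
    intro x
    rw [nsmul_eq_mul]
    have h1 : ((p : ℕ) : k) = 0 := by
      rw [← map_natCast (residue O)]
      exact (IsLocalRing.residue_eq_zero_iff _).2 hpO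
    rw [h1, zero_mul]
  haveI : Module.Finite O (DualNumber k) := by
    haveI : Module.Finite O k := Module.Finite.of_surjective (Algebra.linearMap O k)
      IsLocalRing.residue_surjective
    exact inferInstanceAs (Module.Finite O (k × k))
  refine flC_of_lam h hgk hp2 hA hfl (lamD h hD) (isQRep_endV M) ?_ (fun g => ?_)
    (fun v => ?_) (dualE k) _ fun σ v => ?_
  · change (M complexConjugation).det = -1
    rw [hM, h.R_conj]
    rw [Matrix.det_fin_two]
    simp
  · change _ = (M g).trace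
    rw [hM, ← h.R_trace hgk, Matrix.trace_fin_two, Matrix.trace_fin_two, map_add]
    rfl
  · funext i
    apply TrivSqZeroExt.ext
    · change ((p : ℕ) • v i).fst = 0
      rw [TrivSqZeroExt.fst_smul, hk]
    · change ((p : ℕ) • v i).snd = 0
      rw [TrivSqZeroExt.snd_smul, hk]
  · have e1 : (Matrix.of fun a b => (M σ a b).fst) = redR (h.R hgk) h.theta.toRingHom σ := by
      ext a b
      exact lamD_fst h hD _
    have e2 : (Matrix.of fun a b => (M σ a b).snd) = (h.R hgk σ).map D := by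
      ext a b
      exact lamD_snd h hD _
    have e3 : cD (h.R hgk) h.theta.toRingHom D σ * redR (h.R hgk) h.theta.toRingHom σ =
        (h.R hgk σ).map D := by
      rw [cD, mul_assoc, redR_inv_mul, mul_one]
    exact dualE_mulVec (M σ) v e1 e2 e3

end lev

section mem

variable {O T Y : Type} [CommRing O] [IsLocalRing O] [IsNoetherianRing O]
  [IsAdicComplete (maximalIdeal O) O] [CommRing T] [Algebra O T] [AddCommGroup Y] [Module O Y]
  [Module.Finite O Y] [Module.Free O Y] [Nontrivial Y] {p : ℕ} [hp : Fact p.Prime]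
  {hpO : (p : O) ∈ maximalIdeal O}
  {S : Set ℕ} {ρb : GQ →* M2 (ResidueField O)} {ψ : T →ₐ[O] Module.End O Y}
  {θ : T →ₐ[O] ResidueField O} {ρ : GQ →* Module.End O Y}
  (h : HG hpO S (fun g => (ρb g).trace) ψ θ ρ)
  [Invertible (2 : O)] {g₀ k₀ : GQ} (hgk : HG.IrrAt (fun g => (ρb g).trace) g₀ k₀)

/-- **The tangent cocycles satisfy the flat condition at `p`.** -/
theorem mem_flatS_of_flatAll [Finite (ResidueField O)] (hp2 : p ≠ 2)
    {A : ValuationSubring (AlgebraicClosure ℚ)} (hA : A.LiesOverPrime p)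
    (hfl : FlatAll p A (fun g => ρ g))
    (hred : redR (h.R hgk) h.theta.toRingHom = ρb) (J : Ideal h.TT) (D : h.TT → ResidueField O)
    (hD : IsDer h.theta.toRingHom (Set.range (algebraMap O h.TT)) J D) (hpJ : (p : h.TT) ∈ J) :
    (fun σ : A.decompositionSubgroup ℚ => cS h hgk hD σ) ∈ flatS ρb p A := by
  refine ⟨⟨fun σ τ => cS_mul h hgk hD hred σ τ, ?_⟩, hA,
    cD (h.R hgk) h.theta.toRingHom D, fun σ => rfl, ?_⟩
  · obtain ⟨F, hF, h2⟩ := cD_lc h hgk hD hpJ
    exact ⟨F, hF, fun σ hσ => Subtype.ext (h2 σ hσ)⟩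
  · have := flC_cD h hgk hD hp2 hA hfl
    rw [hred] at this
    exact this

end mem

section YH

variable {O : Type} [CommRing O] [IsLocalRing O] [IsNoetherianRing O]
  [IsAdicComplete (maximalIdeal O) O] {p : ℕ} [hp : Fact p.Prime]
  {hpO : (p : O) ∈ maximalIdeal O} {N : ℕ} [NeZero N] {ι : AlgebraicClosure ℚ →+* ℂ}
  {H : Subgroup (ZMod N)ˣ} [hH : Fact ((-1 : (ZMod N)ˣ) ∈ H)] {S : Set ℕ}
  {hNS : ∀ l, l.Prime → l ∣ N → l ∈ S} {e : TS O S}

/-- **flatness of the levels prime to `p`** -/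
theorem flatAll_YH (hpN : ¬ p ∣ N) (hN3 : 3 ≤ N)
    {A : ValuationSubring (AlgebraicClosure ℚ)} (hA : A.LiesOverPrime p)
    (hfin : ∀ m : ℕ, Finite (O ⧸ Ideal.span {((p ^ m : ℕ) : O)})) :
    FlatAll p A (fun g => rhoY hpO ι H hNS e g) := by
  have hcomm : ∀ g ∈ A.inertiaSubgroupIn ℚ, ∀ (x : XH O N H),
      toPart (phiD O H hNS) (incD O S N e) (rhoO ι hpO g x) =
        rhoY hpO ι H hNS e g (toPart (phiD O H hNS) (incD O S N e) x) := by
    intro g hg x
    apply Subtype.ext
    have h1 := rhoN_phiD (O := O) (H := H) hpO hNS ι g (incD O S N e) x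
    have h3 : cycU N g = 1 := cycU_inertia ((Nat.Prime.coprime_iff_not_dvd hp.out).2 hpN) hA hg
    have h2 : rhoT (O := O) hpO ι N H g = rhoN hpO ι N H g := by
      rw [rhoT_apply, twd_apply, h3, QuotientGroup.mk_one, one_pow, map_one, one_mul]
    refine h1.symm.trans ?_
    change _ = rhoT (O := O) hpO ι N H g _
    rw [h2]
    rfl
  intro n
  haveI : Finite (O ⧸ Ideal.span {((p ^ n : ℕ) : O)}) := hfin n
  refine ⟨finite_PN n, ?_⟩
  · exact exists_flat_I (O := O) hpO ι
      (toPart (phiD O H hNS) (incD O S N e)) (LinearMap.surjective_rangeRestrict _)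
      (fun g => rhoY hpO ι H hNS e g) hA hcomm
      (fun m _ => exists_isHopfFn_XL (m := m) hA hpN hN3 hH.out ι)
      (fun m _ => inferInstance) hfin (J := Unit) (B := YH H hNS e)
      (LinearMap.pi fun _ => LinearMap.id) (fun x y hxy => congrFun hxy ())
      (fun g x => rhoY hpO ι H hNS e g x) (fun g x j => rfl)
      (V' := PN O p (YH H hNS e) n)
      (Submodule.mkQ _).toAddMonoidHom (Submodule.mkQ_surjective _) (n := n)
      (fun x => mk_eq_zero.2 ⟨x, rfl⟩)
      (fun g x => actN p n (rhoY hpO ι H hNS e g) x) (fun g x => rfl)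

end YH

end

end Fermat.Agent.JT
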