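import Fermat.Agent.JT.EFlat
import Fermat.Agent.Flat.RamConc
import Fermat.Agent.EC.Frey

/-!
# Torsion of an elliptic curve with good reduction is finite flat
-/

set_option autoImplicit false
set_option linter.unusedSectionVars false
set_option linter.style.haveILetI false

noncomputable section

namespace Fermat.Agent.JT

open scoped TensorProduct

open Fermat.Agent.FFG Fermat.Agent.Flat Fermat.Agent.EC Polynomial
open WeierstrassCurve WeierstrassCurve.Affine WeierstrassCurve.Affine.Point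

local notation "Ω" => AlgebraicClosure ℚ

variable {A : ValuationSubring (AlgebraicClosure ℚ)} {p : ℕ} [hp : Fact p.Prime]

section eqb

variable {X : Type} {act : (Ω ≃ₐ[R0 A] Ω) → X → X}

theorem EqB.adjoin {S : Set (X → Ω)} (hS : ∀ f ∈ S, (∀ x, f x ∈ A) ∧
    ∀ σ x, f (act σ x) = σ (f x)) : EqB act (Algebra.adjoin (R0 A) S) := by
  refine ⟨fun f hf => ?_, fun f hf => ?_⟩
  · induction hf using Algebra.adjoin_induction with
    | mem x hx => exact (hS x hx).1
    | algebraMap r => exact fun _ => r.2.1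
    | add x y _ _ hx hy => exact fun z => A.add_mem _ _ (hx z) (hy z)
    | mul x y _ _ hx hy => exact fun z => A.mul_mem _ _ (hx z) (hy z)
  · induction hf using Algebra.adjoin_induction with
    | mem x hx => exact (hS x hx).2
    | algebraMap r => exact fun σ _ => (σ.commutes r).symm
    | add x y _ _ hx hy =>
      intro σ z
      rw [Pi.add_apply, Pi.add_apply, hx, hy, _root_.map_add]
    | mul x y _ _ hx hy =>
      intro σ z
      rw [Pi.mul_apply, Pi.mul_apply, hx, hy, _root_.map_mul]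

/-- the tensor square -/
def sqB (B : Subalgebra (R0 A) (X → Ω)) : Subalgebra (R0 A) (X × X → Ω) :=
  (prodA B.val B.val).range

theorem EqB.sqB {B : Subalgebra (R0 A) (X → Ω)} (hB : EqB act B) :
    EqB (fun σ (p : X × X) => (act σ p.1, act σ p.2)) (sqB B) := by
  refine ⟨fun f hf => ?_, fun f hf => ?_⟩
  · obtain ⟨t, rfl⟩ := hf
    intro x
    induction t using TensorProduct.induction_on with
    | zero => rw [_root_.map_zero]; exact A.zero_mem
    | tmul a b =>
      change prodA B.val B.val (a ⊗ₜ b) x ∈ A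
      rw [prodA_tmul]
      exact A.mul_mem _ _ (hB.int _ a.2 _) (hB.int _ b.2 _)
    | add a b ha hb =>
      rw [_root_.map_add]
      exact A.add_mem _ _ ha hb
  · obtain ⟨t, rfl⟩ := hf
    intro σ x
    induction t using TensorProduct.induction_on with
    | zero => rw [_root_.map_zero]; exact (_root_.map_zero σ).symm
    | tmul a b =>
      change prodA B.val B.val (a ⊗ₜ b) _ = σ (prodA B.val B.val (a ⊗ₜ b) x)
      rw [prodA_tmul, prodA_tmul, map_mul]
      exact congrArg₂ _ (hB.eqv _ a.2 _ _) (hB.eqv _ b.2 _ _)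
    | add a b ha hb =>
      rw [_root_.map_add, Pi.add_apply, Pi.add_apply, ha, hb, map_add]

theorem fst_mem {B : Subalgebra (R0 A) (X → Ω)} {f : X → Ω} (hf : f ∈ B) :
    (fun p : X × X => f p.1) ∈ sqB B :=
  ⟨(⟨f, hf⟩ : B) ⊗ₜ 1, funext fun _ => (prodA_tmul _ _ _ _ _).trans (mul_one _)⟩

theorem snd_mem {B : Subalgebra (R0 A) (X → Ω)} {f : X → Ω} (hf : f ∈ B) :
    (fun p : X × X => f p.2) ∈ sqB B :=
  ⟨1 ⊗ₜ (⟨f, hf⟩ : B), funext fun _ => (prodA_tmul _ _ _ _ _).trans (one_mul _)⟩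

theorem span_of_mem {B : Subalgebra (R0 A) (X → Ω)} {f : X × X → Ω} (hf : f ∈ sqB B) :
    f ∈ Submodule.span (R0 A)
      {f : X × X → Ω | ∃ y ∈ B, ∃ z ∈ B, f = fun p => y p.1 * z p.2} := by
  obtain ⟨t, rfl⟩ := hf
  induction t using TensorProduct.induction_on with
  | zero => exact zero_mem _
  | tmul a b =>
    exact Submodule.subset_span ⟨a, a.2, b, b.2, funext fun p => prodA_tmul _ _ _ _ _⟩
  | add a b ha hb =>
    have h := add_mem ha hb
    rwa [← _root_.map_add] at h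

/-- constants fixed by inertia -/
theorem const_mem (B : Subalgebra (R0 A) (X → Ω)) {c : Ω} (hc : c ∈ A)
    (hf : ∀ σ : Ω ≃ₐ[R0 A] Ω, σ c = c) : (fun _ : X => c) ∈ B :=
  B.algebraMap_mem ⟨c, hc, mem_K0_of_fix A hf⟩

end eqb

variable [DecidableEq Ω] {E : Affine ℚ} {V : Type} [AddCommGroup V] [Finite V]

theorem val_ne (hA : A.LiesOverPrime p) {l : ℕ} (hl : l.Prime) (hlp : l ≠ p) :
    A.valuation (l : Ω) = 1 := by
  have h1 := val_int_eq_one_of_not_dvd A.valuation hp.out (FlatRam.v_p_lt_one hA) (n := (l : ℤ)) (by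
    rw [Int.natCast_dvd_natCast, Nat.prime_dvd_prime_iff_eq hp.out hl]
    exact fun h => hlp h.symm)
  exact_mod_cast h1

/-- `p`-power torsion of a curve with good reduction is finite flat -/
theorem exists_hopf (hA : A.LiesOverPrime p) (hp2 : p ≠ 2) (hI : IsInt A.valuation (E⁄Ω))
    (hΔ : A.valuation (E⁄Ω).Δ = 1) (κ : V →+ (E⁄Ω).Point) (hκ : Function.Injective κ)
    {act : (Ω ≃ₐ[R0 A] Ω) → V → V} (hact : ∀ σ v, κ (act σ v) = rq σ • κ v) (n : ℕ)
    (hn : ∀ v, p ^ n • κ v = 0) : ∃ H : Subalgebra (R0 A) (V → Ω), IsHopfFn act H := by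
  classical
  -- a two-torsion point
  have h2 : A.valuation (2 : Ω) = 1 := by exact_mod_cast val_ne hA Nat.prime_two hp2.symm
  obtain ⟨r, t, M⟩ := exists_intT hI h2
  -- an auxiliary prime
  obtain ⟨l, hl, hl2, hlp⟩ : ∃ l : ℕ, l.Prime ∧ l ≠ 2 ∧ l ≠ p := by
    by_cases h3 : p = 3
    · exact ⟨5, by norm_num, by norm_num, by omega⟩
    · exact ⟨3, by norm_num, by norm_num, fun h => h3 h.symm⟩
  have hlodd : Odd l := hl.odd_of_ne_two hl2
  have hvl := val_ne hA hl hlp
  have hΔ0 : (E⁄Ω).Δ ≠ 0 := by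
    intro h
    rw [h, _root_.map_zero] at hΔ
    exact zero_ne_one hΔ
  obtain ⟨T, hT, hT0⟩ : ∃ T : (E⁄Ω).Point, l • T = 0 ∧ T ≠ 0 := by
    by_contra hcon
    push Not at hcon
    have h1 : {P : (E⁄Ω).Point | l • P = 0} = {0} := by
      ext P
      simp only [Set.mem_ofPred_eq, Set.mem_singleton_iff]
      exact ⟨hcon P, fun h => by rw [h, nsmul_zero]⟩
    have h3 := ncard_torsion (W := (E⁄Ω)) hΔ0 hlodd
    have h4 : Set.ncard {P : (E⁄Ω).Point | l • P = 0} = l ^ 2 := h3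
    rw [h1, Set.ncard_singleton] at h4
    have := hl.one_lt
    nlinarith
  have hfixT : ∀ σ : Ω ≃ₐ[R0 A] Ω, rq σ • T = T := fun σ =>
    (isInert_of_mem A (rq_mem σ)).fix_good hI hΔ hlodd hvl hT
  have hcop : Nat.Coprime (p ^ n) l := Nat.Coprime.pow_left n
    ((Nat.coprime_primes hp.out hl).2 hlp.symm)
  have hgood : ∀ (P S : (E⁄Ω).Point), p ^ n • P = 0 → l • S = 0 → S ≠ 0 →
      P + S ≠ 0 ∧ ∃ x y h, P + S = Point.some x y h ∧ A.valuation x ≤ 1 := fun P S hP hS hS0 =>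
    good_pt M hI hlodd hvl hcop hP hS hS0
  have hTn : l • (-T) = 0 := by rw [neg_nsmul, hT, _root_.neg_zero]
  have hTn0 : -T ≠ 0 := neg_ne_zero.2 hT0
  have hT2 : l • (-T + -T) = 0 := by rw [nsmul_add, hTn, add_zero]
  have hT20 : -T + -T ≠ 0 := by
    intro h
    have h1 : 2 • T = 0 := by
      rw [two_nsmul, ← neg_eq_zero, neg_add]; exact h
    have h5 : addOrderOf T ∣ l := addOrderOf_dvd_of_nsmul_eq_zero hT
    have h6 : addOrderOf T ∣ 2 := addOrderOf_dvd_of_nsmul_eq_zero h1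
    have h7 : addOrderOf T = 1 := Nat.eq_one_of_dvd_coprimes
      ((Nat.coprime_primes hl Nat.prime_two).2 hl2) h5 h6
    exact hT0 (AddMonoid.addOrderOf_eq_one_iff.1 h7)
  have hσadd : ∀ (σ : Ω ≃ₐ[R0 A] Ω) (P Q : (E⁄Ω).Point), rq σ • (P + Q) = rq σ • P + rq σ • Q :=
    fun σ P Q => smul_add (rq σ) P Q
  have hσc : ∀ (σ : Ω ≃ₐ[R0 A] Ω) (P : (E⁄Ω).Point), cx (rq σ • P) = σ (cx P) ∧
      cy (rq σ • P) = σ (cy P) := by
    intro σ P
    rcases P with _ | ⟨x, y, h⟩
    · have h0 : rq σ • (0 : (E⁄Ω).Point) = 0 :=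
        DistribMulAction.smul_zero (A := (E⁄Ω).Point) (rq σ)
      change cx (rq σ • (0 : (E⁄Ω).Point)) = σ 0 ∧ cy (rq σ • (0 : (E⁄Ω).Point)) = σ 0
      rw [h0, _root_.map_zero]
      exact ⟨rfl, rfl⟩
    · rw [smul_some]
      exact ⟨rfl, rfl⟩
  -- integrality of the coordinates
  have hcA : ∀ (P S : (E⁄Ω).Point), p ^ n • P = 0 → l • S = 0 → S ≠ 0 →
      cx (P + S) ∈ A ∧ cy (P + S) ∈ A := by
    intro P S hP hS hS0
    obtain ⟨_, x, y, h, he, hx⟩ := hgood P S hP hS hS0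
    rw [he]
    exact ⟨(A.valuation_le_one_iff _).1 hx, (A.valuation_le_one_iff _).1 (hI.y_integral h.1 hx)⟩
  have hcv : ∀ (P S : (E⁄Ω).Point), p ^ n • P = 0 → l • S = 0 → S ≠ 0 →
      A.valuation (cx (P + S)) ≤ 1 := fun P S hP hS hS0 =>
    (A.valuation_le_one_iff _).2 (hcA P S hP hS hS0).1
  let xT : V → Ω := fun v => cx (κ v + -T)
  let yT : V → Ω := fun v => cy (κ v + -T)
  let H : Subalgebra (R0 A) (V → Ω) := Algebra.adjoin (R0 A) {xT, yT}
  have hH : EqB act H := by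
    refine EqB.adjoin fun f hf => ?_
    have hnT : ∀ σ : Ω ≃ₐ[R0 A] Ω, rq σ • (-T) = -T := fun σ => by rw [smul_neg, hfixT]
    rcases hf with rfl | rfl
    · refine ⟨fun v => (hcA _ _ (hn v) hTn hTn0).1, fun σ v => ?_⟩
      change cx (κ (act σ v) + -T) = σ (cx (κ v + -T))
      rw [← (hσc σ _).1, hσadd, hact, hnT]
    · refine ⟨fun v => (hcA _ _ (hn v) hTn hTn0).2, fun σ v => ?_⟩
      change cy (κ (act σ v) + -T) = σ (cy (κ v + -T))
      rw [← (hσc σ _).2, hσadd, hact, hnT]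
  have hxH : xT ∈ H := Algebra.subset_adjoin (Or.inl rfl)
  have hyH : yT ∈ H := Algebra.subset_adjoin (Or.inr rfl)
  have hsep : ∀ P Q : V, (∀ x ∈ H, x P = x Q) → P = Q := by
    intro P Q h
    apply hκ
    have h1 := ext_c (hgood _ _ (hn P) hTn hTn0).1 (hgood _ _ (hn Q) hTn hTn0).1 (h _ hxH)
      (h _ hyH)
    exact add_right_cancel h1
  have hinj : ∀ σ, Function.Injective (act σ) := by
    intro σ P Q h
    refine hsep P Q fun x hx => σ.injective ?_
    rw [← hH.eqv x hx, ← hH.eqv x hx, h]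
  have hbij : ∀ σ, Function.Bijective (act σ) := fun σ => Finite.injective_iff_bijective.1 (hinj σ)
  have hact0 : ∀ σ, act σ 0 = 0 := fun σ => hκ (by
    rw [hact, _root_.map_zero]
    exact DistribMulAction.smul_zero (A := (E⁄Ω).Point) (rq σ))
  -- constants
  have hC : ∀ {X : Type} (B : Subalgebra (R0 A) (X → Ω)), CIn B (E⁄Ω) := by
    intro X B
    have hq : ∀ q : ℚ, ∀ σ : Ω ≃ₐ[R0 A] Ω, σ (algebraMap ℚ Ω q) = algebraMap ℚ Ω q := fun q σ =>
      (rq σ).commutes q
    exact ⟨const_mem B ((A.valuation_le_one_iff _).1 hI.a₁) (hq _),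
      const_mem B ((A.valuation_le_one_iff _).1 hI.a₂) (hq _),
      const_mem B ((A.valuation_le_one_iff _).1 hI.a₃) (hq _),
      const_mem B ((A.valuation_le_one_iff _).1 hI.a₄) (hq _)⟩
  have hsq := hH.sqB
  have hbij2 : ∀ σ, Function.Bijective (fun (q : V × V) => (act σ q.1, act σ q.2)) := fun σ =>
    (hbij σ).prodMap (hbij σ)
  have hT' := hcA 0 T (nsmul_zero _) hT hT0
  rw [zero_add] at hT'
  have hTc : (fun _ : V × V => cx T) ∈ sqB H ∧ (fun _ : V × V => cy T) ∈ sqB H :=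
    ⟨const_mem _ hT'.1 fun σ => by rw [← (hσc σ T).1, hfixT],
      const_mem _ hT'.2 fun σ => by rw [← (hσc σ T).2, hfixT]⟩
  -- the first addition
  have e1 : ∀ q : V × V, (κ q.1 + -T) + (κ q.2 + -T) = κ (q.1 + q.2) + (-T + -T) := fun q => by
    rw [_root_.map_add]; abel
  have s1 := coord_add hA hsq hbij2 (hC _) hI hΔ (fun q : V × V => κ q.1 + -T)
    (fun q : V × V => κ q.2 + -T) (fun q => (hgood _ _ (hn _) hTn hTn0).1)
    (fun q => (hgood _ _ (hn _) hTn hTn0).1) ⟨fst_mem hxH, fst_mem hyH⟩ ⟨snd_mem hxH, snd_mem hyH⟩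
    (fun q => by rw [e1]; exact (hgood _ _ (hn _) hT2 hT20).1)
    (fun q => by rw [e1]; exact hcv _ _ (hn _) hT2 hT20)
  -- the second addition
  have e2 : ∀ q : V × V, ((κ q.1 + -T) + (κ q.2 + -T)) + T = κ (q.1 + q.2) + -T := fun q => by
    rw [e1]; abel
  have s2 := coord_add hA hsq hbij2 (hC _) hI hΔ
    (fun q : V × V => (κ q.1 + -T) + (κ q.2 + -T)) (fun _ => T)
    (fun q => by rw [e1]; exact (hgood _ _ (hn _) hT2 hT20).1) (fun _ => hT0) s1 hTc
    (fun q => by rw [e2]; exact (hgood _ _ (hn _) hTn hTn0).1)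
    (fun q => by rw [e2]; exact hcv _ _ (hn _) hTn hTn0)
  refine ⟨H, ⟨⟨fun x hx P => ?_, fun x hx σ P => hH.eqv x hx σ P, hsep⟩, hact0, fun x hx => ?_⟩⟩
  · exact isIntegral_of_equiv (isOver A) hbij (fun Q => ⟨⟨x Q, hH.int x hx Q⟩, rfl⟩)
      (fun σ Q => hH.eqv x hx σ Q) P
  · apply span_of_mem
    induction hx using Algebra.adjoin_induction with
    | mem f hf =>
      rcases hf with rfl | rfl
      · convert s2.1 using 1
        funext q
        change cx (κ (q.1 + q.2) + -T) = _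
        rw [e2]
      · convert s2.2 using 1
        funext q
        change cy (κ (q.1 + q.2) + -T) = _
        rw [e2]
    | algebraMap r => exact (sqB H).algebraMap_mem r
    | add x y _ _ hx hy => exact add_mem hx hy
    | mul x y _ _ hx hy => exact mul_mem hx hy

end Fermat.Agent.JT
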