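import Fermat.Agent.JT.FlatAll
import Fermat.Agent.JT.EHopf
import Fermat.Agent.WPt.Main
import Fermat.Agent.JT.PtY

/-!
# Flatness of the point, and of the joint module
-/

set_option autoImplicit false
set_option linter.unusedSectionVars false
set_option linter.style.haveILetI false

open IsLocalRing Matrix
open Fermat.Agent.KumG Fermat.Agent.GalRep Fermat.Agent.Places Fermat.Agent.Cheb Fermat.Agent.TW
open Fermat.Agent.FFG Fermat.Agent.Flat Fermat.Agent.FlT Fermat.Agent.Sel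

namespace Fermat.Agent.JT

noncomputable section

local notation "Ω" => AlgebraicClosure ℚ

section abs

variable {O : Type} [CommRing O] [IsNoetherianRing O] {p : ℕ} [hp : Fact p.Prime]
  {A : ValuationSubring (AlgebraicClosure ℚ)}

/-- **Flatness of `O²` from the flatness of the torsion groups.** -/
theorem flatN_of_tors (hA : A.LiesOverPrime p) {ρW : GQ → Matrix (Fin 2) (Fin 2) O} {N : ℕ}
    [Finite (O ⧸ Ideal.span {((p ^ N : ℕ) : O)})]
    {X : Type} [AddCommGroup X] [Finite X] {aX : GQ → X → X} {H : Subalgebra (R0 A) (X → Ω)}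
    (hH : IsHopfFn (actI (A := A) aX) H) (mk : (Fin 2 → ℤ) →+ X) (hmk : Function.Surjective mk)
    (hker : ∀ f, mk f = 0 → ∃ g, f = (p ^ N) • g) (Q Q' : Matrix (Fin 2) (Fin 2) O)
    (hQ : Q' * Q = 1)
    (hact : ∀ g ∈ A.inertiaSubgroupIn ℚ, ∀ f f', mk f' = aX g (mk f) → ∃ z : Fin 2 → O,
      ρW g *ᵥ (Q' *ᵥ (fun i => (f i : O))) = Q' *ᵥ (fun i => (f' i : O)) + (p ^ N : O) • z) :
    ∃ H' : Subalgebra (R0 A) (PN O p (Fin 2 → O) N → Ω),
      IsHopfFn (actI (A := A) fun g x => actN p N (mulVecLin (ρW g)) x) H' := by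
  haveI := isPrincipalIdealRing_R0 hA
  obtain ⟨b, o, ho⟩ := FlT.exists_gens (((p ^ N : ℕ) : O))
  have hpi := IsHopfFn.pi (J := Fin b) (fun _ => hH)
  let τ : (Fin 2 → ℤ) →+ (Fin 2 → O) :=
    { toFun := fun f => Q' *ᵥ (fun i => (f i : O))
      map_zero' := by
        have : (fun i => (((0 : Fin 2 → ℤ) i : ℤ) : O)) = 0 := by funext i; simp
        rw [this, Matrix.mulVec_zero]
      map_add' := fun f g => by
        rw [← Matrix.mulVec_add]
        congr 1
        funext i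
        simp }
  have hτ : ∀ f, τ f = Q' *ᵥ (fun i => (f i : O)) := fun _ => rfl
  let Λ : (Fin b → (Fin 2 → ℤ)) →+ (Fin 2 → O) :=
    { toFun := fun f => ∑ k, o k • τ (f k)
      map_zero' := by simp
      map_add' := fun f g => by
        rw [← Finset.sum_add_distrib]
        exact Finset.sum_congr rfl fun k _ => by rw [Pi.add_apply, map_add, smul_add] }
  have hΛ : ∀ f, Λ f = ∑ k, o k • τ (f k) := fun _ => rfl
  let C : AddSubgroup ((Fin b → X) × PN O p (Fin 2 → O) N) :=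
    { carrier := {z | ∃ f : Fin b → (Fin 2 → ℤ), (∀ k, mk (f k) = z.1 k) ∧
        z.2 = Submodule.Quotient.mk (Λ f)}
      add_mem' := by
        rintro z w ⟨f, h1, h2⟩ ⟨g, h3, h4⟩
        refine ⟨f + g, fun k => ?_, ?_⟩
        · rw [Pi.add_apply, map_add, h1, h3]
          rfl
        · rw [Prod.snd_add, h2, h4, map_add, Submodule.Quotient.mk_add]
      zero_mem' := ⟨0, fun k => by rw [Pi.zero_apply, map_zero]; rfl, by
        rw [map_zero, Submodule.Quotient.mk_zero]; rfl⟩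
      neg_mem' := by
        rintro z ⟨f, h1, h2⟩
        refine ⟨-f, fun k => ?_, ?_⟩
        · rw [Pi.neg_apply, map_neg, h1]
          rfl
        · rw [Prod.snd_neg, h2, map_neg, Submodule.Quotient.mk_neg] }
  refine exists_of_corr hpi C ?_ ?_ ?_
  · rintro v ⟨f, h1, h2⟩
    choose g hg using fun k => hker (f k) (h1 k)
    have h3 : v = Submodule.Quotient.mk (Λ f) := h2
    rw [h3]
    refine mk_eq_zero.2 ⟨Λ g, ?_⟩
    have h4 : f = (p ^ N) • g := funext hg
    rw [h4, map_nsmul, Nat.cast_smul_eq_nsmul]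
  · intro v
    obtain ⟨x, rfl⟩ := Submodule.Quotient.mk_surjective _ v
    -- coordinates in the basis
    choose z y hzy using fun i => ho ((Q *ᵥ x) i)
    refine ⟨fun k => mk fun i => z i k, fun k i => z i k, fun k => rfl, ?_⟩
    have h1 : x = Λ (fun k i => z i k) + ((p ^ N : ℕ) : O) • (Q' *ᵥ y) := by
      have h2 : Q' *ᵥ (Q *ᵥ x) = x := by rw [Matrix.mulVec_mulVec, hQ, Matrix.one_mulVec]
      have h3 : Q *ᵥ x = ∑ k, o k • (fun i => ((z i k : ℤ) : O)) + ((p ^ N : ℕ) : O) • y := by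
        funext i
        rw [hzy i, Pi.add_apply, Finset.sum_apply, Pi.smul_apply, smul_eq_mul]
        congr 1
        refine Finset.sum_congr rfl fun k _ => ?_
        rw [Pi.smul_apply, smul_eq_mul, zsmul_eq_mul, mul_comm]
      conv_lhs => rw [← h2, h3]
      rw [Matrix.mulVec_add, Matrix.mulVec_smul, Matrix.mulVec_sum]
      congr 1
      refine Finset.sum_congr rfl fun k _ => ?_
      rw [Matrix.mulVec_smul, hτ]
    change (Submodule.Quotient.mk x : PN O p (Fin 2 → O) N) = Submodule.Quotient.mk _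
    rw [← sub_eq_zero, ← Submodule.Quotient.mk_sub]
    refine mk_eq_zero.2 ⟨Q' *ᵥ y, ?_⟩
    rw [sub_eq_iff_eq_add']
    exact h1
  · rintro γ w v ⟨f, h1, h2⟩
    choose f' hf' using fun k => hmk (aX (rq γ) (w k))
    choose z hz using fun k => hact (rq γ) (rq_mem γ) (f k) (f' k) (by rw [hf', h1])
    refine ⟨f', hf', ?_⟩
    have h3 : v = Submodule.Quotient.mk (Λ f) := h2
    change actN p N (mulVecLin (ρW (rq γ))) v = _
    rw [h3, actN_mk, ← sub_eq_zero, ← Submodule.Quotient.mk_sub]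
    refine mk_eq_zero.2 ⟨∑ k, o k • z k, ?_⟩
    rw [hΛ, hΛ, map_sum, ← Finset.sum_sub_distrib, Finset.smul_sum]
    refine Finset.sum_congr rfl fun k _ => ?_
    rw [map_smul, Matrix.mulVecLin_apply, hτ, hz, hτ, smul_add, add_sub_cancel_left,
      Nat.cast_pow, smul_comm]

end abs

section W

open Fermat.Agent.WPt Fermat.Agent.CL Fermat.Agent.EC Fermat.Agent.ImW Fermat.Agent.TWG
open WeierstrassCurve WeierstrassCurve.Affine

variable {O : Type} [CommRing O] [IsLocalRing O] [IsNoetherianRing O]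
  [IsAdicComplete (maximalIdeal O) O] {p : ℕ} [hp : Fact p.Prime] {hpO : (p : O) ∈ maximalIdeal O}
  {W : WeierstrassCurve ℤ} {ρb : GQ →* Matrix (Fin 2) (Fin 2) (ZMod p)}
  {κ : ZMod p →+* ResidueField O} {g₀ : GQ} {ρW : GQ →* Matrix (Fin 2) (Fin 2) O}
  {A : ValuationSubring (AlgebraicClosure ℚ)}

theorem tseq_tors {V : Type*} [AddCommGroup V] {e f : ℕ → V} (T : TSeq p e f) (N : ℕ) (a b : ℤ) :
    p ^ N • (a • e N + b • f N) = 0 := by
  rw [smul_add, smul_comm, T.tors_e, smul_comm (p ^ N) b, T.tors_f, smul_zero, smul_zero, add_zero]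

theorem comb_add {V : Type*} [AddCommGroup V] (x y : V) (a b a' b' : ℤ) :
    (a + a') • x + (b + b') • y = (a • x + b • y) + (a' • x + b' • y) := by
  rw [add_smul, add_smul]
  abel

theorem comb_sub {V : Type*} [AddCommGroup V] {x y : V} {a b c d : ℤ}
    (h : a • x + b • y = c • x + d • y) : (c - a) • x + (d - b) • y = 0 := by
  have h1 : (c - a) • x + (d - b) • y = (c • x + d • y) - (a • x + b • y) := by
    rw [sub_smul, sub_smul]
    abel
  rw [h1, h, sub_self]

/-- **The representation of a curve with good reduction is flat.** -/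
theorem flatAll_W (hA : A.LiesOverPrime p) (hp2 : p ≠ 2) (hgood : ¬ (p : ℤ) ∣ W.Δ)
    (hfin : ∀ m : ℕ, Finite (O ⧸ Ideal.span {((p ^ m : ℕ) : O)}))
    (h : WPt.WRep W p hpO ρb κ g₀ ρW) : FlatAll p A (fun g => mulVecLin (ρW g)) := by
  have hΔ : W.Δ ≠ 0 := fun h0 => hgood (h0 ▸ dvd_zero _)
  have hodd : Odd p := hp.out.odd_of_ne_two hp2
  obtain ⟨e, f, T, Q, Q', hQQ, hQQ', hlim⟩ := h.tors
  intro N
  haveI := hfin N
  refine ⟨finite_PN N, ?_⟩
  haveI : Finite (TW W (p ^ N)) := finite_TW hΔ (hodd.pow (n := N))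
  let X := TW W (p ^ N)
  have hmem : ∀ P : PtW W, p ^ N • P = 0 → P ∈ TW W (p ^ N) := fun P hP => by
    rw [Submodule.mem_torsionBy_iff, natCast_zsmul]
    exact hP
  have htor : ∀ P : X, p ^ N • (P : PtW W) = 0 := fun P => by
    have h1 := (Submodule.mem_torsionBy_iff _ _).1 P.2
    rwa [natCast_zsmul] at h1
  have hσn : ∀ (g : GQ) (P : PtW W) (m : ℕ), m • (g • P) = g • (m • P) := fun g P m =>
    (map_nsmul (DistribSMul.toAddMonoidHom (PtW W) g) m P).symm
  let aX : GQ → X → X := fun g P => ⟨g • (P : PtW W), hmem _ (by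
    rw [hσn, htor]
    exact (DistribSMul.toAddMonoidHom (PtW W) g).map_zero)⟩
  have hΔ1 : A.valuation ((EQ W)⁄Ω).Δ = 1 := by
    rw [val_Δ]
    exact val_int_eq_one_of_not_dvd A.valuation hp.out (FlatRam.v_p_lt_one hA) hgood
  obtain ⟨H, hH⟩ := exists_hopf (E := EQ W) (V := X) hA hp2 (isInt_EQ W A.valuation) hΔ1
    (X.subtype.toAddMonoidHom) Subtype.val_injective
    (act := fun σ P => aX (rq σ) P) (fun σ P => rfl) N htor
  let mk : (Fin 2 → ℤ) →+ X :=
    { toFun := fun g => ⟨g 0 • e N + g 1 • f N, hmem _ (tseq_tors T N (g 0) (g 1))⟩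
      map_zero' := Subtype.ext (by simp)
      map_add' := fun g g' => Subtype.ext (comb_add (e N) (f N) (g 0) (g 1) (g' 0) (g' 1)) }
  have hmkc : ∀ g, ((mk g : X) : PtW W) = g 0 • e N + g 1 • f N := fun _ => rfl
  refine flatN_of_tors (aX := aX) hA hH mk (fun P => ?_) (fun g hg => ?_) Q Q' hQQ' fun σ _ g g' hgg' => ?_
  · obtain ⟨a, b, hab⟩ := T.gen N (P : PtW W) (htor P)
    exact ⟨![a, b], Subtype.ext hab.symm⟩
  · obtain ⟨⟨a, ha⟩, ⟨b, hb⟩⟩ := T.free N (g 0) (g 1) (congrArg Subtype.val hg)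
    refine ⟨![a, b], ?_⟩
    funext i
    fin_cases i
    · change g 0 = (p ^ N) • a
      rw [ha, nsmul_eq_mul]
    · change g 1 = (p ^ N) • b
      rw [hb, nsmul_eq_mul]
  · obtain ⟨Y, hY, E, hE⟩ := hlim σ N
    have h1 : g' 0 • e N + g' 1 • f N =
        (Y 0 0 * g 0 + Y 0 1 * g 1) • e N + (Y 1 0 * g 0 + Y 1 1 * g 1) • f N := by
      rw [← hmkc, hgg']
      exact hY.apply (g 0) (g 1)
    obtain ⟨⟨a, ha⟩, ⟨b, hb⟩⟩ := T.free N (Y 0 0 * g 0 + Y 0 1 * g 1 - g' 0)
      (Y 1 0 * g 0 + Y 1 1 * g 1 - g' 1) (comb_sub h1)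
    have h3 : (mI O Y) *ᵥ (fun i => (g i : O)) = (fun i => (g' i : O)) +
        (p ^ N : O) • ![(a : O), (b : O)] := by
      funext i
      fin_cases i
      · have h4 := congrArg (Int.cast : ℤ → O) ha
        push_cast at h4
        change ((mI O Y) *ᵥ (fun i => (g i : O))) 0 = (g' 0 : O) + (p : O) ^ N * (a : O)
        rw [Matrix.mulVec, dotProduct, Fin.sum_univ_two, mI_apply, mI_apply]
        linear_combination h4
      · have h4 := congrArg (Int.cast : ℤ → O) hb
        push_cast at h4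
        change ((mI O Y) *ᵥ (fun i => (g i : O))) 1 = (g' 1 : O) + (p : O) ^ N * (b : O)
        rw [Matrix.mulVec, dotProduct, Fin.sum_univ_two, mI_apply, mI_apply]
        linear_combination h4
    refine ⟨Q' *ᵥ (![(a : O), (b : O)] + E *ᵥ (fun i => (g i : O))), ?_⟩
    have h5 : ρW σ * Q' = Q' * (Q * ρW σ * Q') := by
      rw [← mul_assoc, ← mul_assoc, hQQ', one_mul]
    rw [Matrix.mulVec_mulVec, h5, ← Matrix.mulVec_mulVec, hE, Matrix.add_mulVec, h3,
      Matrix.smul_mulVec, Matrix.mulVec_add, Matrix.mulVec_add, Matrix.mulVec_add,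
      Matrix.mulVec_smul, Matrix.mulVec_smul, smul_add]
    abel

end W

section joint

variable {O : Type} [CommRing O] [IsLocalRing O] [IsNoetherianRing O]
  [IsAdicComplete (maximalIdeal O) O] {p : ℕ} [hp : Fact p.Prime]
  {Y : Type} [AddCommGroup Y] [Module O Y]
  {A : ValuationSubring (AlgebraicClosure ℚ)}
  {ρ : GQ →* Module.End O Y} {ρW : GQ →* Matrix (Fin 2) (Fin 2) O}

/-- **The joint module is flat.** -/
theorem flatAll_joint (hA : A.LiesOverPrime p) (h1 : FlatAll p A (fun g => ρ g))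
    (h2 : FlatAll p A (fun g => mulVecLin (ρW g))) :
    FlatAll p A (fun g => rhoJ ρ ρW g) := FlatAll.prod hA h1 h2

end joint

end

end Fermat.Agent.JT
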