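import Fermat.Agent.FFG.Base
import Fermat.Agent.FFG.Rep
import Fermat.Agent.FFG.Hopf2
import Fermat.Agent.EC.CardTorsion
import Fermat.Agent.EC.InertiaSub
import Fermat.Agent.EC.FreyLocal
import Fermat.Agent.EllFrob.Reduction

/-!
# Torsion of an elliptic curve with good reduction is finite flat
-/

set_option autoImplicit false
set_option linter.unusedSectionVars false
set_option linter.style.haveILetI false
set_option linter.unusedSimpArgs false

noncomputable section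

namespace Fermat.Agent.JT

open Fermat.Agent.FFG Fermat.Agent.Flat Fermat.Agent.EC Polynomial
open WeierstrassCurve WeierstrassCurve.Affine WeierstrassCurve.Affine.Point

local notation "Ω" => AlgebraicClosure ℚ

variable {A : ValuationSubring (AlgebraicClosure ℚ)} {p : ℕ} [hp : Fact p.Prime]

/-! ### Rings of equivariant integral functions -/

section ring

variable {X : Type} [Finite X] {act : (Ω ≃ₐ[R0 A] Ω) → X → X}

/-- a ring of integral equivariant functions -/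
structure EqB (act : (Ω ≃ₐ[R0 A] Ω) → X → X) (B : Subalgebra (R0 A) (X → Ω)) : Prop where
  int : ∀ f ∈ B, ∀ x, f x ∈ A
  eqv : ∀ f ∈ B, ∀ σ x, f (act σ x) = σ (f x)

variable {B : Subalgebra (R0 A) (X → Ω)} (hB : EqB act B)
  (hbij : ∀ σ, Function.Bijective (act σ))

include hB hbij in
/-- functions with unit values are invertible -/
theorem EqB.inv_mem {f : X → Ω} (hf : f ∈ B) (hu : ∀ x, A.valuation (f x) = 1) :
    (fun x => (f x)⁻¹) ∈ B := by
  classical
  haveI := Fintype.ofFinite X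
  let Q : Polynomial Ω := ∏ T : X, (Polynomial.X - C (f T))
  have hmon : Q.Monic := monic_prod_of_monic _ _ fun T _ => monic_X_sub_C _
  have hcoef : ∀ n, Q.coeff n ∈ (algebraMap A Ω).range := by
    have h1 : Q ∈ Polynomial.lifts ((algebraMap A Ω).range.subtype) := by
      refine prod_mem fun T _ => ?_
      rw [sub_eq_add_neg, ← C_neg]
      exact add_mem (X_mem_lifts _) (C'_mem_lifts ⟨⟨-f T, neg_mem ⟨⟨f T, hB.int f hf T⟩, rfl⟩⟩, rfl⟩)
    intro n
    obtain ⟨q, hq⟩ := (Polynomial.mem_lifts _).1 h1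
    rw [← hq, coeff_map]
    exact (q.coeff n).2
  have hfix : ∀ n, ∀ σ : Ω ≃ₐ[R0 A] Ω, σ (Q.coeff n) = Q.coeff n := by
    intro n σ
    have h1 : Q.map (σ : Ω →+* Ω) = Q := by
      rw [Polynomial.map_prod]
      have h2 : ∀ T : X, (Polynomial.X - C (f T)).map (σ : Ω →+* Ω) = Polynomial.X - C (f (act σ T)) :=
        fun T => by
        rw [Polynomial.map_sub, map_X, map_C, hB.eqv f hf]
        rfl
      simp only [h2]
      exact (Equiv.ofBijective (act σ) (hbij σ)).prod_comp (fun T => Polynomial.X - C (f T))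
    have h3 := congrArg (fun q => coeff q n) h1
    simp only [coeff_map] at h3
    exact h3
  have hlift : Q ∈ Polynomial.lifts (algebraMap (R0 A) Ω) := by
    rw [Polynomial.lifts_iff_coeff_lifts]
    intro n
    obtain ⟨r, hr⟩ := (isOver A).fix _ (hcoef n) (hfix n)
    exact ⟨r, hr⟩
  obtain ⟨q, hq⟩ := (Polynomial.mem_lifts _).1 hlift
  have hq0 : Polynomial.aeval f q = 0 := by
    funext T
    have h1 : (Polynomial.aeval f q) T = Polynomial.aeval (f T) q := by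
      have := Polynomial.aeval_algHom_apply (Pi.evalAlgHom (R0 A) (fun _ : X => Ω) T) f q
      exact this.symm
    rw [h1, Pi.zero_apply, ← Polynomial.eval_map_algebraMap, hq, Polynomial.eval_prod]
    exact Finset.prod_eq_zero (Finset.mem_univ T) (by simp)
  have hc0 : (algebraMap (R0 A) Ω) (q.coeff 0) = ∏ T : X, (-f T) := by
    rw [← coeff_map, hq, coeff_zero_eq_eval_zero, Polynomial.eval_prod]
    exact Finset.prod_congr rfl fun T _ => by simp
  have hv : A.valuation ((q.coeff 0 : R0 A) : Ω) = 1 := by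
    have : ((q.coeff 0 : R0 A) : Ω) = ∏ T : X, (-f T) := hc0
    rw [this, map_prod]
    exact Finset.prod_eq_one fun T _ => by rw [Valuation.map_neg, hu]
  have hne : ((q.coeff 0 : R0 A) : Ω) ≠ 0 := by
    intro h
    rw [h, _root_.map_zero] at hv
    exact zero_ne_one hv
  have hcinv : (((q.coeff 0 : R0 A) : Ω))⁻¹ ∈ R0 A :=
    ⟨(A.valuation_le_one_iff _).1 (by rw [map_inv₀, hv, inv_one]),
      (K0 A).inv_mem (q.coeff 0).2.2⟩
  let c : R0 A := ⟨_, hcinv⟩
  have h2 := Polynomial.X_mul_divX_add q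
  have h3 : f * Polynomial.aeval f q.divX + algebraMap (R0 A) (X → Ω) (q.coeff 0) = 0 := by
    rw [← hq0]
    conv_rhs => rw [← h2]
    rw [map_add, map_mul, Polynomial.aeval_X, Polynomial.aeval_C]
  have h4 : (fun x => (f x)⁻¹) = (-c) • Polynomial.aeval f q.divX := by
    funext x
    have h5 := congrFun h3 x
    have h6 : f x ≠ 0 := by
      intro h
      have := hu x
      rw [h, _root_.map_zero] at this
      exact zero_ne_one this
    have h7 : f x * (Polynomial.aeval f q.divX) x + ((q.coeff 0 : R0 A) : Ω) = 0 := h5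
    have h8 : ((-c) • Polynomial.aeval f q.divX) x =
        -(((q.coeff 0 : R0 A) : Ω))⁻¹ * (Polynomial.aeval f q.divX) x := rfl
    rw [h8]
    field_simp
    linear_combination h7
  rw [h4]
  exact B.smul_mem (Algebra.adjoin_le (Set.singleton_subset_iff.2 hf)
    (Polynomial.aeval_mem_adjoin_singleton (R0 A) f)) _

/-- a generic linear combination is a unit -/
theorem exists_comb (D₁ D₂ : X → Ω) (h1 : ∀ x, D₁ x ∈ A) (h2 : ∀ x, D₂ x ∈ A)
    (h : ∀ x, A.valuation (D₁ x) = 1 ∨ A.valuation (D₂ x) = 1) (hA : A.LiesOverPrime p) :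
    ∃ c : R0 A, ∀ x, A.valuation (D₁ x + c * D₂ x) = 1 := by
  classical
  haveI := Fintype.ofFinite X
  haveI : IsAlgClosed (IsLocalRing.ResidueField A) := Fermat.Agent.EllFrob.isAlgClosed_residueField A
  haveI : Infinite (IsLocalRing.ResidueField A) := IsAlgClosed.instInfinite
  let r : A →+* IsLocalRing.ResidueField A := IsLocalRing.residue A
  let bad : Finset (IsLocalRing.ResidueField A) :=
    Finset.univ.image fun x : X => -(r ⟨D₁ x, h1 x⟩) / r ⟨D₂ x, h2 x⟩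
  obtain ⟨c₀, hc₀⟩ := Infinite.exists_notMem_finset bad
  obtain ⟨a, ha, hac⟩ := exists_fixScal hA c₀
  refine ⟨⟨a, a.2, ha⟩, fun x => ?_⟩
  have hval : ∀ y : A, A.valuation (y : Ω) = 1 ↔ r y ≠ 0 := fun y => by
    exact (A.valuation_eq_one_iff y).symm.trans (IsLocalRing.residue_ne_zero_iff_isUnit y).symm
  have e : D₁ x + (a : Ω) * D₂ x = ((⟨D₁ x, h1 x⟩ + a * ⟨D₂ x, h2 x⟩ : A) : Ω) := rfl
  change A.valuation (D₁ x + (a : Ω) * D₂ x) = 1
  rw [e, hval, map_add, map_mul]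
  have hac' : r a = c₀ := hac
  rw [hac']
  intro h0
  by_cases hd : r ⟨D₂ x, h2 x⟩ = 0
  · rw [hd, mul_zero, add_zero] at h0
    rcases h x with h3 | h3
    · exact (hval ⟨D₁ x, h1 x⟩).1 h3 h0
    · exact (hval ⟨D₂ x, h2 x⟩).1 h3 hd
  · apply hc₀
    refine Finset.mem_image.2 ⟨x, Finset.mem_univ x, ?_⟩
    rw [div_eq_iff hd]
    linear_combination -h0

end ring

/-! ### Coordinates of sums -/

section coord

variable {X : Type} [Finite X] {act : (Ω ≃ₐ[R0 A] Ω) → X → X}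
  {B : Subalgebra (R0 A) (X → Ω)}

/-- the first coordinate -/
def cx {W : WeierstrassCurve Ω} : W.toAffine.Point → Ω
  | .zero => 0
  | .some x _ _ => x

/-- the second coordinate -/
def cy {W : WeierstrassCurve Ω} : W.toAffine.Point → Ω
  | .zero => 0
  | .some _ y _ => y

variable {W : WeierstrassCurve Ω}

@[simp] theorem cx_some {x y : Ω} (h : W.toAffine.Nonsingular x y) :
    cx (Point.some x y h : W.toAffine.Point) = x := rfl

@[simp] theorem cy_some {x y : Ω} (h : W.toAffine.Nonsingular x y) :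
    cy (Point.some x y h : W.toAffine.Point) = y := rfl

theorem ext_c {P Q : W.toAffine.Point} (hP : P ≠ 0) (hQ : Q ≠ 0) (hx : cx P = cx Q)
    (hy : cy P = cy Q) : P = Q := by
  rcases P with _ | ⟨x, y, h⟩
  · exact absurd rfl hP
  rcases Q with _ | ⟨x', y', h'⟩
  · exact absurd rfl hQ
  simp only [cx_some, cy_some] at hx hy
  subst hx hy
  rfl

variable [DecidableEq Ω]

/-- the slope formula, uniformly -/
theorem slope_mul {x₁ y₁ x₂ y₂ : Ω} (h₁ : W.toAffine.Equation x₁ y₁)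
    (h₂ : W.toAffine.Equation x₂ y₂) (hxy : ¬ (x₁ = x₂ ∧ y₁ = W.toAffine.negY x₂ y₂)) :
    W.toAffine.slope x₁ x₂ y₁ y₂ * (x₁ - x₂) = y₁ - y₂ ∧
    W.toAffine.slope x₁ x₂ y₁ y₂ * (y₁ + y₂ + W.a₁ * x₂ + W.a₃) =
      x₁ ^ 2 + x₁ * x₂ + x₂ ^ 2 + W.a₂ * (x₁ + x₂) + W.a₄ - W.a₁ * y₁ := by
  have e₁ := h₁
  have e₂ := h₂
  rw [equation_iff] at e₁ e₂
  by_cases hx : x₁ = x₂
  · have hy : y₁ ≠ W.toAffine.negY x₂ y₂ := fun h => hxy ⟨hx, h⟩
    have hyy := Y_eq_of_Y_ne h₁ h₂ hx hy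
    subst hx hyy
    rw [slope_of_Y_ne rfl hy]
    have hd : y₁ - W.toAffine.negY x₁ y₁ ≠ 0 := sub_ne_zero.2 hy
    refine ⟨by ring, ?_⟩
    have e : y₁ + y₁ + W.a₁ * x₁ + W.a₃ = y₁ - W.toAffine.negY x₁ y₁ := by
      rw [negY]; ring
    rw [e, div_mul_cancel₀ _ hd]
    ring
  · rw [slope_of_X_ne hx]
    have hd : x₁ - x₂ ≠ 0 := sub_ne_zero.2 hx
    refine ⟨div_mul_cancel₀ _ hd, ?_⟩
    rw [div_mul_eq_mul_div, div_eq_iff hd]
    linear_combination e₁ - e₂

/-- the coefficients lie in the ring -/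
structure CIn (B : Subalgebra (R0 A) (X → Ω)) (W : WeierstrassCurve Ω) : Prop where
  a₁ : (fun _ => W.a₁) ∈ B
  a₂ : (fun _ => W.a₂) ∈ B
  a₃ : (fun _ => W.a₃) ∈ B
  a₄ : (fun _ => W.a₄) ∈ B

theorem coord_add (hA : A.LiesOverPrime p) (hB : EqB act B)
    (hbij : ∀ σ, Function.Bijective (act σ)) (hC : CIn B W) (hI : IsInt A.valuation W)
    (hΔ : A.valuation W.Δ = 1) (F G : X → W.toAffine.Point) (hF0 : ∀ x, F x ≠ 0)
    (hG0 : ∀ x, G x ≠ 0)
    (hF : (fun x => cx (F x)) ∈ B ∧ (fun x => cy (F x)) ∈ B)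
    (hG : (fun x => cx (G x)) ∈ B ∧ (fun x => cy (G x)) ∈ B)
    (h0 : ∀ x, F x + G x ≠ 0) (hint : ∀ x, A.valuation (cx (F x + G x)) ≤ 1) :
    (fun x => cx (F x + G x)) ∈ B ∧ (fun x => cy (F x + G x)) ∈ B := by
  -- the functions
  let x₁ : X → Ω := fun x => cx (F x)
  let y₁ : X → Ω := fun x => cy (F x)
  let x₂ : X → Ω := fun x => cx (G x)
  let y₂ : X → Ω := fun x => cy (G x)
  let D₁ : X → Ω := x₁ - x₂
  let N₁ : X → Ω := y₁ - y₂
  let c₁ : X → Ω := fun _ => W.a₁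
  let c₂ : X → Ω := fun _ => W.a₂
  let c₃ : X → Ω := fun _ => W.a₃
  let c₄ : X → Ω := fun _ => W.a₄
  let D₂ : X → Ω := y₁ + y₂ + c₁ * x₂ + c₃
  let N₂ : X → Ω := x₁ ^ 2 + x₁ * x₂ + x₂ ^ 2 + c₂ * (x₁ + x₂) + c₄ - c₁ * y₁
  have hx₁ : x₁ ∈ B := hF.1
  have hy₁ : y₁ ∈ B := hF.2
  have hx₂ : x₂ ∈ B := hG.1
  have hy₂ : y₂ ∈ B := hG.2
  have hD₁ : D₁ ∈ B := sub_mem hx₁ hx₂
  have hN₁ : N₁ ∈ B := sub_mem hy₁ hy₂
  have hD₂ : D₂ ∈ B := add_mem (add_mem (add_mem hy₁ hy₂) (mul_mem hC.a₁ hx₂)) hC.a₃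
  have hN₂ : N₂ ∈ B := sub_mem (add_mem (add_mem (add_mem (add_mem (pow_mem hx₁ 2)
    (mul_mem hx₁ hx₂)) (pow_mem hx₂ 2)) (mul_mem hC.a₂ (add_mem hx₁ hx₂))) hC.a₄)
    (mul_mem hC.a₁ hy₁)
  have hle : ∀ {f : X → Ω}, f ∈ B → ∀ x, A.valuation (f x) ≤ 1 := fun hf x =>
    (A.valuation_le_one_iff _).2 (hB.int _ hf x)
  -- one of the denominators is a unit
  have hunit : ∀ x, A.valuation (D₁ x) = 1 ∨ A.valuation (D₂ x) = 1 := by
    intro x
    by_contra hcon
    push Not at hcon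
    have v1 : A.valuation (D₁ x) < 1 := lt_of_le_of_ne (hle hD₁ x) hcon.1
    have v2 : A.valuation (D₂ x) < 1 := lt_of_le_of_ne (hle hD₂ x) hcon.2
    have hx₂' := hle hx₂ x
    have hh0 := h0 x
    have hhint := hint x
    have hF0x := hF0 x
    have hG0x := hG0 x
    simp only [D₁, D₂, x₁, x₂, y₁, y₂, c₁, c₃, Pi.sub_apply, Pi.add_apply, Pi.mul_apply] at v1 v2 hx₂'
    rcases hFx : F x with _ | ⟨a, b, hab⟩
    · exact hF0x hFx
    rcases hGx : G x with _ | ⟨a', b', hab'⟩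
    · exact hG0x hGx
    rw [hFx, hGx] at v1 v2 hh0 hhint
    rw [hGx] at hx₂'
    simp only [cx_some, cy_some] at v1 v2 hx₂'
    have hn : W.toAffine.Nonsingular a' (W.toAffine.negY a' b') :=
      (nonsingular_neg (W' := W.toAffine) a' b').mpr hab'
    have h3 : (Point.some a' b' hab' : W.toAffine.Point) = - Point.some a' (W.toAffine.negY a' b') hn := by
      rw [Point.neg_some, Point.some.injEq]
      exact ⟨rfl, (negY_negY _ _).symm⟩
    have h4 := hI.sub_reduces hΔ hn hab hx₂' v1 (by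
      have e : b - W.toAffine.negY a' b' = b + b' + W.a₁ * a' + W.a₃ := by rw [negY]; ring
      rw [e]; exact v2)
    rw [h3, ← sub_eq_add_neg] at hh0 hhint
    rcases h4 with h4 | ⟨x', y', h', he, hx'⟩
    · exact hh0 h4
    · rw [he, cx_some] at hhint
      exact absurd hx' (not_lt.2 hhint)
  obtain ⟨c, hc⟩ := exists_comb D₁ D₂ (hB.int _ hD₁) (hB.int _ hD₂) hunit hA
  have hDc : (D₁ + c • D₂) ∈ B := add_mem hD₁ (B.smul_mem hD₂ c)
  have hNc : (N₁ + c • N₂) ∈ B := add_mem hN₁ (B.smul_mem hN₂ c)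
  have hinv : (fun x => ((D₁ + c • D₂) x)⁻¹) ∈ B := hB.inv_mem hbij hDc fun x => hc x
  let s : X → Ω := (N₁ + c • N₂) * (fun x => ((D₁ + c • D₂) x)⁻¹)
  have hs : s ∈ B := mul_mem hNc hinv
  have key : ∀ x, cx (F x + G x) = s x ^ 2 + W.a₁ * s x - W.a₂ - x₁ x - x₂ x ∧
      cy (F x + G x) = -(s x * (s x ^ 2 + W.a₁ * s x - W.a₂ - x₁ x - x₂ x - x₁ x) + y₁ x) -
        W.a₁ * (s x ^ 2 + W.a₁ * s x - W.a₂ - x₁ x - x₂ x) - W.a₃ := by
    intro x
    have hcx := hc x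
    have hh0 := h0 x
    have hF0x := hF0 x
    have hG0x := hG0 x
    have hsx : s x = ((y₁ x - y₂ x) + c * (x₁ x ^ 2 + x₁ x * x₂ x + x₂ x ^ 2 +
      W.a₂ * (x₁ x + x₂ x) + W.a₄ - W.a₁ * y₁ x)) * ((x₁ x - x₂ x) + c * (y₁ x + y₂ x +
        W.a₁ * x₂ x + W.a₃))⁻¹ := rfl
    have hne : (x₁ x - x₂ x) + c * (y₁ x + y₂ x + W.a₁ * x₂ x + W.a₃) ≠ 0 := by
      intro h
      have : A.valuation ((x₁ x - x₂ x) + c * (y₁ x + y₂ x + W.a₁ * x₂ x + W.a₃)) = 1 := hcx
      rw [h, _root_.map_zero] at this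
      exact zero_ne_one this
    simp only [x₁, x₂, y₁, y₂] at hsx hne ⊢
    rcases hFx : F x with _ | ⟨a, b, hab⟩
    · exact absurd hFx hF0x
    rcases hGx : G x with _ | ⟨a', b', hab'⟩
    · exact absurd hGx hG0x
    rw [hFx, hGx] at hh0 hsx hne
    simp only [cx_some, cy_some] at hsx hne ⊢
    have hxy : ¬ (a = a' ∧ b = W.toAffine.negY a' b') := fun h => hh0 (Point.add_of_Y_eq h.1 h.2)
    have hsl := slope_mul hab.1 hab'.1 hxy
    have hss : s x = W.toAffine.slope a a' b b' := by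
      rw [hsx, ← div_eq_mul_inv, div_eq_iff hne]
      linear_combination -hsl.1 - (c : Ω) * hsl.2
    rw [Point.add_some hxy, cx_some, cy_some, hss]
    refine ⟨rfl, rfl⟩
  have hxm : (s ^ 2 + c₁ * s - c₂ - x₁ - x₂) ∈ B :=
    sub_mem (sub_mem (sub_mem (add_mem (pow_mem hs 2) (mul_mem hC.a₁ hs)) hC.a₂) hx₁) hx₂
  refine ⟨?_, ?_⟩
  · convert hxm using 1
    funext x
    exact (key x).1
  · have hym : (-(s * (s ^ 2 + c₁ * s - c₂ - x₁ - x₂ - x₁) + y₁) -
        c₁ * (s ^ 2 + c₁ * s - c₂ - x₁ - x₂) - c₃) ∈ B :=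
      sub_mem (sub_mem (neg_mem (add_mem (mul_mem hs (sub_mem hxm hx₁)) hy₁))
        (mul_mem hC.a₁ hxm)) hC.a₃
    convert hym using 1
    funext x
    exact (key x).2

end coord

/-! ### Auxiliary facts -/

section aux

/-- a two-torsion point -/
theorem exists_intT {K : Type*} [Field K] [IsAlgClosed K] {Γ₀ : Type*}
    [LinearOrderedCommGroupWithZero Γ₀] {v : Valuation K Γ₀} {W : WeierstrassCurve K}
    (hI : IsInt v W) (h2 : v (2 : K) = 1) : ∃ r t, IntT v W r t := by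
  have hn : ∀ n : ℕ, v (n : K) ≤ 1 := fun n => by
    have : (n : K) ∈ v.integer := natCast_mem _ n
    exact this
  have hn' : ∀ n : ℕ, v (OfNat.ofNat (n + 2) : K) ≤ 1 := fun n => by
    have := hn (n + 2)
    exact_mod_cast this
  have h20 : (2 : K) ≠ 0 := by
    intro h
    rw [h, _root_.map_zero] at h2
    exact zero_ne_one h2
  have h4 : v (4 : K) = 1 := by
    rw [show (4 : K) = 2 * 2 by norm_num, map_mul, h2, one_mul]
  have h40 : (4 : K) ≠ 0 := by
    intro h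
    rw [h, _root_.map_zero] at h4
    exact zero_ne_one h4
  have vb₂ : v W.b₂ ≤ 1 := by
    rw [WeierstrassCurve.b₂]
    refine v.map_add_le ?_ ?_
    · rw [map_pow]; exact pow_le_one' hI.a₁ 2
    · rw [map_mul]; exact mul_le_one' (hn' 2) hI.a₂
  have vb₄ : v W.b₄ ≤ 1 := by
    rw [WeierstrassCurve.b₄]
    refine v.map_add_le ?_ ?_
    · rw [map_mul]; exact mul_le_one' (hn' 0) hI.a₄
    · rw [map_mul]; exact mul_le_one' hI.a₁ hI.a₃
  have vb₆ : v W.b₆ ≤ 1 := by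
    rw [WeierstrassCurve.b₆]
    refine v.map_add_le ?_ ?_
    · rw [map_pow]; exact pow_le_one' hI.a₃ 2
    · rw [map_mul]; exact mul_le_one' (hn' 2) hI.a₆
  let f : K[X] := C 4 * Polynomial.X ^ 3 + C W.b₂ * Polynomial.X ^ 2 + C (2 * W.b₄) * Polynomial.X +
    C W.b₆
  have hdeg : f.natDegree = 3 := natDegree_cubic h40
  have hdeg' : f.degree = 3 := degree_cubic h40
  obtain ⟨r, hr⟩ := IsAlgClosed.exists_root f (by rw [hdeg']; decide)
  have hc3 : f.coeff 3 = 4 := by simp [f, coeff_X, coeff_C]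
  have hc2 : f.coeff 2 = W.b₂ := by simp [f, coeff_X, coeff_C]
  have hc1 : f.coeff 1 = 2 * W.b₄ := by simp [f, coeff_X, coeff_C]
  have hc0 : f.coeff 0 = W.b₆ := by simp [f]
  have hvr : v r ≤ 1 := by
    refine val_le_one_of_root (f := f) (fun i => ?_) hdeg.le (by rw [hc3, h4]) hr
    rcases i with _ | _ | _ | _ | i
    · rw [hc0]; exact vb₆
    · rw [zero_add, hc1, map_mul]; exact mul_le_one' (hn' 0) vb₄
    · rw [zero_add, hc2]; exact vb₂
    · rw [zero_add, hc3, h4]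
    · rw [coeff_eq_zero_of_natDegree_lt (by omega), _root_.map_zero]
      exact zero_le_one
  have hr' : 4 * r ^ 3 + W.b₂ * r ^ 2 + 2 * W.b₄ * r + W.b₆ = 0 := by
    have : f.eval r = 0 := hr
    simpa [f] using this
  let t : K := -(W.a₁ * r + W.a₃) / 2
  have ht : 2 * t + W.a₁ * r + W.a₃ = 0 := by
    simp only [t]
    field_simp
    ring
  have hE : W.toAffine.Equation r t := by
    rw [equation_iff]
    have h5 : 4 * (t ^ 2 + W.a₁ * r * t + W.a₃ * t - (r ^ 3 + W.a₂ * r ^ 2 + W.a₄ * r + W.a₆)) = 0 := by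
      simp only [WeierstrassCurve.b₂, WeierstrassCurve.b₄, WeierstrassCurve.b₆] at hr'
      linear_combination (2 * t + W.a₁ * r + W.a₃) * ht - hr'
    have h6 := (mul_eq_zero.1 h5).resolve_left h40
    linear_combination h6
  have hvt : v t ≤ 1 := hI.y_integral hE hvr
  refine ⟨r, t, ⟨⟨hE, ht⟩, hI.a₁, ?_, ?_, hvr⟩⟩
  · rw [tA2]
    refine v.map_add_le hI.a₂ ?_
    rw [map_mul]; exact mul_le_one' (hn' 1) hvr
  · rw [tA4]
    refine v.map_sub_le (v.map_add_le (v.map_add_le ?_ ?_) hI.a₄) ?_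
    · rw [map_mul, map_pow]; exact mul_le_one' (hn' 1) (pow_le_one' hvr 2)
    · rw [map_mul, map_mul]; exact mul_le_one' (mul_le_one' (hn' 0) hI.a₂) hvr
    · rw [map_mul]; exact mul_le_one' hI.a₁ hvt

/-- sums of a `p`-power torsion point and a nontrivial prime-to-`p` torsion point are integral -/
theorem good_pt {K : Type*} [Field K] [DecidableEq K] {Γ₀ : Type*}
    [LinearOrderedCommGroupWithZero Γ₀] {v : Valuation K Γ₀} {W : WeierstrassCurve K} {r t : K}
    (M : IntT v W r t) (hI : IsInt v W) {q l : ℕ} (hl : Odd l) (hvl : v (l : K) = 1)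
    (hql : Nat.Coprime q l) {P S : W.toAffine.Point} (hP : q • P = 0) (hS : l • S = 0)
    (hS0 : S ≠ 0) : P + S ≠ 0 ∧ ∃ x y h, P + S = Point.some x y h ∧ v x ≤ 1 := by
  have hnot : P + S ∉ M.E1 := by
    intro hmem
    have h1 : q • (P + S) ∈ M.E1 := M.E1.nsmul_mem hmem q
    rw [smul_add, hP, zero_add] at h1
    have h2 : l • (q • S) = 0 := by rw [smul_comm, hS, smul_zero]
    have h3 : q • S = 0 := by
      rcases hqS : q • S with _ | ⟨x, y, h⟩
      · rfl
      · exfalso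
        rw [hqS] at h1 h2
        rw [M.mem_E1_some'] at h1
        exact absurd h1 (not_lt.2 (hI.torsion_integral hl hvl h h2))
    apply hS0
    have h4 : addOrderOf S ∣ q := addOrderOf_dvd_of_nsmul_eq_zero h3
    have h5 : addOrderOf S ∣ l := addOrderOf_dvd_of_nsmul_eq_zero hS
    have h6 : addOrderOf S = 1 := Nat.eq_one_of_dvd_coprimes hql h4 h5
    exact AddMonoid.addOrderOf_eq_one_iff.1 h6
  have h0 : P + S ≠ 0 := fun h => hnot (h ▸ M.E1.zero_mem)
  refine ⟨h0, ?_⟩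
  rcases hPS : P + S with _ | ⟨x, y, h⟩
  · exact absurd hPS h0
  · rw [hPS, M.mem_E1_some', not_lt] at hnot
    exact ⟨x, y, h, rfl, hnot⟩

end aux

end Fermat.Agent.JT
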